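/-
GATE-Z (S15) / [MOD-beta] / GZ-MODB-WEQ (helper71), file 1 = PIN: **the formal `q`-expansions of the
Tate functions `X(u,q)`, `Y(u,q)`, `a₄(q)`, `a₆(q)`**, over an ARBITRARY commutative ring.

For `R` a commutative ring and `u u' w : R` (thought of as `u`, `u⁻¹`, `(1 - u)⁻¹`):

* `xCoeff u u' d = ∑_{m ∣ d} m (u^m + u'^m - 2)`,
  `yCoeff u u' d = ∑_{m ∣ d} (C(m,2) u^m - C(m+1,2) u'^m + m)`   (`= 0` for `d = 0`);
* `Xf u u' w = u w² + ∑_{d ≥ 1} xCoeff u u' d · q^d`, `Yf u u' w = u² w³ + ∑_{d ≥ 1} yCoeff u u' d · q^d`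
  in `R⟦X⟧` — the expansions of `X(u,q) = ∑_{n ∈ ℤ} q^n u/(1 - q^n u)² - 2 s₁(q)` and
  `Y(u,q) = ∑_{n ∈ ℤ} (q^n u)²/(1 - q^n u)³ + s₁(q)` on `|q| < |u| < |q|⁻¹` (INCLUDING `|u| = 1`);
* `sf k = ∑_d σ_k(d) q^d`, `a4f = -5 sf 3`, `a6f = -∑_d (∑_{m ∣ d} (5m³+7m⁵)/12) q^d` in `ℤ⟦X⟧`;
* `WeqF u u' w` : the formal Weierstrass equation `Yf² + Xf·Yf = Xf³ + a₄ Xf + a₆` in `R⟦X⟧`;
* naturality: `map_Xf`, `map_Yf`, `WeqF.map`.

Mathlib only.
-/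
import Mathlib

set_option autoImplicit false

noncomputable section

namespace Fermat.Agent.GZ.Tate.Weq

open PowerSeries

variable {R : Type*} [CommRing R]

/-! ### the coefficients -/

/-- the coefficient of `q^d` (`d ≥ 1`) of `X(u,q)`: `∑_{m ∣ d} m (u^m + u'^m - 2)`. -/
def xCoeff (u u' : R) (d : ℕ) : R := ∑ m ∈ d.divisors, (m : R) * (u ^ m + u' ^ m - 2)

/-- the coefficient of `q^d` (`d ≥ 1`) of `Y(u,q)`:
`∑_{m ∣ d} (C(m,2) u^m - C(m+1,2) u'^m + m)`. -/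
def yCoeff (u u' : R) (d : ℕ) : R :=
  ∑ m ∈ d.divisors, (((m.choose 2 : ℕ) : R) * u ^ m - (((m + 1).choose 2 : ℕ) : R) * u' ^ m + (m : R))

@[simp] theorem xCoeff_zero (u u' : R) : xCoeff u u' 0 = 0 := by simp [xCoeff]

@[simp] theorem yCoeff_zero (u u' : R) : yCoeff u u' 0 = 0 := by simp [yCoeff]

/-- the formal `q`-expansion of `X(u,q)`. -/
def Xf (u u' w : R) : R⟦X⟧ := C (u * w ^ 2) + mk (xCoeff u u')

/-- the formal `q`-expansion of `Y(u,q)`. -/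
def Yf (u u' w : R) : R⟦X⟧ := C (u ^ 2 * w ^ 3) + mk (yCoeff u u')

theorem coeff_Xf (u u' w : R) (d : ℕ) :
    coeff d (Xf u u' w) = if d = 0 then u * w ^ 2 else xCoeff u u' d := by
  rw [Xf, map_add, coeff_C, coeff_mk]
  split_ifs with h
  · subst h; simp
  · simp

theorem coeff_Yf (u u' w : R) (d : ℕ) :
    coeff d (Yf u u' w) = if d = 0 then u ^ 2 * w ^ 3 else yCoeff u u' d := by
  rw [Yf, map_add, coeff_C, coeff_mk]
  split_ifs with h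
  · subst h; simp
  · simp

/-- the divisor-power-sum series `∑_{d ≥ 1} σ_k(d) q^d = ∑_{n ≥ 1} n^k q^n/(1 - q^n)`. -/
def sf (k : ℕ) : ℤ⟦X⟧ := mk fun d => ∑ m ∈ d.divisors, (m : ℤ) ^ k

/-- the integer `(5 n³ + 7 n⁵) / 12` (same as `GZ/Tate/Defs.a6Coeff`). -/
def a6C (n : ℕ) : ℕ := (5 * n ^ 3 + 7 * n ^ 5) / 12

theorem twelve_dvd_a6 (n : ℕ) : 12 ∣ 5 * n ^ 3 + 7 * n ^ 5 := by
  have h : (5 * n ^ 3 + 7 * n ^ 5) % 12 = 0 := by
    have h12 : n % 12 < 12 := Nat.mod_lt _ (by norm_num)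
    have : (5 * n ^ 3 + 7 * n ^ 5) % 12 = (5 * (n % 12) ^ 3 + 7 * (n % 12) ^ 5) % 12 := by
      simp [Nat.add_mod, Nat.mul_mod, Nat.pow_mod]
    rw [this]
    generalize n % 12 = r at h12
    interval_cases r <;> rfl
  exact Nat.dvd_of_mod_eq_zero h

theorem a6C_spec (n : ℕ) : 12 * a6C n = 5 * n ^ 3 + 7 * n ^ 5 :=
  Nat.mul_div_cancel' (twelve_dvd_a6 n)

/-- `a₄(q) = -5 s₃(q)` as a formal series. -/
def a4f : ℤ⟦X⟧ := -5 * sf 3

/-- `a₆(q) = -(5 s₃(q) + 7 s₅(q))/12` as a formal series (integer coefficients). -/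
def a6f : ℤ⟦X⟧ := -mk fun d => ∑ m ∈ d.divisors, (a6C m : ℤ)

theorem twelve_mul_a6f : (12 : ℤ⟦X⟧) * a6f = -(5 * sf 3 + 7 * sf 5) := by
  ext d
  have h12 : (12 : ℤ⟦X⟧) = C (12 : ℤ) := by simp
  have h5 : (5 : ℤ⟦X⟧) = C (5 : ℤ) := by simp
  have h7 : (7 : ℤ⟦X⟧) = C (7 : ℤ) := by simp
  rw [a6f, mul_neg, map_neg, map_neg, map_add, h12, h5, h7, coeff_C_mul, coeff_C_mul, coeff_C_mul,
    sf, sf, coeff_mk, coeff_mk, coeff_mk, Finset.mul_sum, Finset.mul_sum, Finset.mul_sum,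
    ← Finset.sum_add_distrib]
  congr 1
  apply Finset.sum_congr rfl
  intro m _
  have h := a6C_spec m
  have h' : (12 : ℤ) * (a6C m : ℤ) = 5 * (m : ℤ) ^ 3 + 7 * (m : ℤ) ^ 5 := by exact_mod_cast h
  rw [h']

/-- **the formal Weierstrass equation** `Yf² + Xf Yf = Xf³ + a₄ Xf + a₆` in `R⟦X⟧`. -/
def WeqF (u u' w : R) : Prop :=
  Yf u u' w ^ 2 + Xf u u' w * Yf u u' w =
    Xf u u' w ^ 3 + map (Int.castRingHom R) a4f * Xf u u' w + map (Int.castRingHom R) a6f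

/-! ### naturality -/

variable {S : Type*} [CommRing S] (φ : R →+* S)

theorem map_xCoeff (u u' : R) (d : ℕ) : φ (xCoeff u u' d) = xCoeff (φ u) (φ u') d := by
  simp [xCoeff, map_sum, map_ofNat]

theorem map_yCoeff (u u' : R) (d : ℕ) : φ (yCoeff u u' d) = yCoeff (φ u) (φ u') d := by
  simp [yCoeff, map_sum]

theorem map_Xf (u u' w : R) : map φ (Xf u u' w) = Xf (φ u) (φ u') (φ w) := by
  ext d
  rw [coeff_map, coeff_Xf, coeff_Xf]
  split_ifs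
  · simp
  · exact map_xCoeff φ u u' d

theorem map_Yf (u u' w : R) : map φ (Yf u u' w) = Yf (φ u) (φ u') (φ w) := by
  ext d
  rw [coeff_map, coeff_Yf, coeff_Yf]
  split_ifs
  · simp
  · exact map_yCoeff φ u u' d

theorem map_map_intCast (f : ℤ⟦X⟧) :
    map φ (map (Int.castRingHom R) f) = map (Int.castRingHom S) f := by
  ext d
  simp [coeff_map]

/-- the formal Weierstrass equation is preserved by ring homomorphisms. -/
theorem WeqF.map {u u' w : R} (h : WeqF u u' w) : WeqF (φ u) (φ u') (φ w) := by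
  have := congrArg (PowerSeries.map φ) h
  simp only [map_add, map_mul, map_pow, map_Xf, map_Yf, map_map_intCast] at this
  exact this

end Fermat.Agent.GZ.Tate.Weq
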