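/-
GATE-Z (S15) / [MOD-beta] / GZ-MODB-WEQ (helper71), file 2: **evaluation of formal power series in a
complete normed field** (archimedean or not: serves `ℂ` and the ultrametric `K` of `GZ/Tate/Defs`).

* `evalPS f q = ∑' d, coeff d f * q ^ d`;
* `AbsConv f q` : the series converges absolutely at `q`;
* on absolutely convergent series `evalPS · q` is additive and multiplicative (`evalPS_add`,
  `evalPS_mul`, `evalPS_pow`), `evalPS_C`, `evalPS_neg`, `evalPS_sub`;
* `eq_zero_of_evalPS_eq_zero` : **identity theorem** over a nontrivially normed field: a series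
  converging absolutely and vanishing on a punctured neighbourhood of `0` (and at `0`) is `0`.

Mathlib only.
-/
import Mathlib

set_option autoImplicit false
set_option linter.unusedSectionVars false

noncomputable section

namespace Fermat.Agent.GZ.Tate.Weq

open PowerSeries

variable {𝕜 : Type*} [NormedField 𝕜]

/-- evaluation of a formal power series at `q`. -/
def evalPS (f : 𝕜⟦X⟧) (q : 𝕜) : 𝕜 := ∑' d, coeff d f * q ^ d

/-- absolute convergence of the formal power series `f` at `q`. -/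
def AbsConv (f : 𝕜⟦X⟧) (q : 𝕜) : Prop := Summable fun d => ‖coeff d f * q ^ d‖

theorem absConv_C (a q : 𝕜) : AbsConv (C a) q := by
  unfold AbsConv
  apply summable_of_ne_finset_zero (s := {0})
  intro d hd
  have hd' : d ≠ 0 := by simpa using hd
  rw [coeff_C, if_neg hd', zero_mul, norm_zero]

theorem AbsConv.add {f g : 𝕜⟦X⟧} {q : 𝕜} (hf : AbsConv f q) (hg : AbsConv g q) :
    AbsConv (f + g) q := by
  unfold AbsConv at *
  refine Summable.of_nonneg_of_le (fun _ => norm_nonneg _) (fun d => ?_) (hf.add hg)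
  rw [map_add, add_mul]
  exact norm_add_le _ _

theorem AbsConv.neg {f : 𝕜⟦X⟧} {q : 𝕜} (hf : AbsConv f q) : AbsConv (-f) q := by
  unfold AbsConv at *
  simpa [map_neg, neg_mul, norm_neg] using hf

theorem AbsConv.sub {f g : 𝕜⟦X⟧} {q : 𝕜} (hf : AbsConv f q) (hg : AbsConv g q) :
    AbsConv (f - g) q := by
  rw [sub_eq_add_neg]
  exact hf.add hg.neg

theorem coeff_mul_mul_pow (f g : 𝕜⟦X⟧) (q : 𝕜) (d : ℕ) :
    coeff d (f * g) * q ^ d =
      ∑ kl ∈ Finset.HasAntidiagonal.antidiagonal d, (coeff kl.1 f * q ^ kl.1) * (coeff kl.2 g * q ^ kl.2) := by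
  rw [coeff_mul, Finset.sum_mul]
  apply Finset.sum_congr rfl
  intro kl hkl
  rw [← Finset.HasAntidiagonal.mem_antidiagonal.1 hkl, pow_add]
  ring

theorem AbsConv.mul {f g : 𝕜⟦X⟧} {q : 𝕜} (hf : AbsConv f q) (hg : AbsConv g q) :
    AbsConv (f * g) q := by
  unfold AbsConv at *
  have := summable_norm_sum_mul_antidiagonal_of_summable_norm hf hg
  refine this.congr (fun d => ?_)
  rw [coeff_mul_mul_pow]

theorem AbsConv.pow {f : 𝕜⟦X⟧} {q : 𝕜} (hf : AbsConv f q) (n : ℕ) : AbsConv (f ^ n) q := by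
  induction n with
  | zero =>
    rw [pow_zero]
    have : (1 : 𝕜⟦X⟧) = C (1 : 𝕜) := by simp
    rw [this]
    exact absConv_C 1 q
  | succ n ih =>
    rw [pow_succ]
    exact ih.mul hf

variable [CompleteSpace 𝕜]

theorem AbsConv.summable {f : 𝕜⟦X⟧} {q : 𝕜} (hf : AbsConv f q) :
    Summable fun d => coeff d f * q ^ d :=
  Summable.of_norm hf

theorem evalPS_C (a q : 𝕜) : evalPS (C a) q = a := by
  unfold evalPS
  rw [tsum_eq_single 0]
  · simp
  · intro d hd
    rw [coeff_C, if_neg hd, zero_mul]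

theorem evalPS_add {f g : 𝕜⟦X⟧} {q : 𝕜} (hf : AbsConv f q) (hg : AbsConv g q) :
    evalPS (f + g) q = evalPS f q + evalPS g q := by
  unfold evalPS
  rw [← hf.summable.tsum_add hg.summable]
  congr 1
  ext d
  rw [map_add, add_mul]

theorem evalPS_neg (f : 𝕜⟦X⟧) (q : 𝕜) : evalPS (-f) q = -evalPS f q := by
  unfold evalPS
  rw [← tsum_neg]
  congr 1
  ext d
  rw [map_neg, neg_mul]

theorem evalPS_sub {f g : 𝕜⟦X⟧} {q : 𝕜} (hf : AbsConv f q) (hg : AbsConv g q) :
    evalPS (f - g) q = evalPS f q - evalPS g q := by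
  rw [sub_eq_add_neg, evalPS_add hf hg.neg, evalPS_neg, sub_eq_add_neg]

theorem evalPS_mul {f g : 𝕜⟦X⟧} {q : 𝕜} (hf : AbsConv f q) (hg : AbsConv g q) :
    evalPS (f * g) q = evalPS f q * evalPS g q := by
  unfold evalPS
  rw [tsum_mul_tsum_eq_tsum_sum_antidiagonal_of_summable_norm hf hg]
  congr 1
  ext d
  rw [coeff_mul_mul_pow]

theorem evalPS_pow {f : 𝕜⟦X⟧} {q : 𝕜} (hf : AbsConv f q) (n : ℕ) :
    evalPS (f ^ n) q = evalPS f q ^ n := by
  induction n with
  | zero =>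
    rw [pow_zero, pow_zero]
    have : (1 : 𝕜⟦X⟧) = C (1 : 𝕜) := by simp
    rw [this, evalPS_C]
  | succ n ih =>
    rw [pow_succ, pow_succ, evalPS_mul (hf.pow n) hf, ih]

/-- absolute convergence at `q` implies absolute convergence at every `q'` with `‖q'‖ ≤ ‖q‖`. -/
theorem AbsConv.of_norm_le {f : 𝕜⟦X⟧} {q q' : 𝕜} (hf : AbsConv f q) (h : ‖q'‖ ≤ ‖q‖) :
    AbsConv f q' := by
  unfold AbsConv at *
  refine Summable.of_nonneg_of_le (fun _ => norm_nonneg _) (fun d => ?_) hf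
  rw [norm_mul, norm_mul, norm_pow, norm_pow]
  exact mul_le_mul_of_nonneg_left (pow_le_pow_left₀ (norm_nonneg _) h d) (norm_nonneg _)

/-! ### the identity theorem -/

/-- **identity theorem**: a power series over a nontrivially normed complete field which converges
absolutely and vanishes at every `q` with `‖q‖ < ρ` is zero. -/
theorem eq_zero_of_evalPS_eq_zero {𝕜 : Type*} [NontriviallyNormedField 𝕜] [CompleteSpace 𝕜]
    {f : 𝕜⟦X⟧} {ρ : ℝ} (hρ : 0 < ρ) (hconv : ∀ q : 𝕜, ‖q‖ < ρ → AbsConv f q)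
    (h0 : ∀ q : 𝕜, ‖q‖ < ρ → evalPS f q = 0) : f = 0 := by
  obtain ⟨q1, hq1pos, hq1ρ⟩ := NormedField.exists_norm_lt 𝕜 hρ
  have hS := hconv q1 hq1ρ
  set B : ℝ := ∑' d, ‖coeff d f * q1 ^ d‖ with hB
  have hB0 : 0 ≤ B := tsum_nonneg fun _ => norm_nonneg _
  ext n
  rw [map_zero]
  induction n using Nat.strong_induction_on with
  | _ n ih =>
    by_contra hne
    have hpos : 0 < ‖coeff n f‖ := norm_pos_iff.2 hne
    -- the key estimate for small `q`
    have key : ∀ q : 𝕜, q ≠ 0 → ‖q‖ ≤ ‖q1‖ → ‖coeff n f‖ * ‖q1‖ ^ (n + 1) ≤ ‖q‖ * B := by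
      intro q hq0 hq
      have hqρ : ‖q‖ < ρ := lt_of_le_of_lt hq hq1ρ
      have hSq := hconv q hqρ
      have hsum := h0 q hqρ
      unfold evalPS at hsum
      rw [← Summable.sum_add_tsum_nat_add (n + 1) hSq.summable, Finset.sum_range_succ,
        Finset.sum_eq_zero (fun j hj => by rw [ih j (Finset.mem_range.1 hj), zero_mul]),
        zero_add] at hsum
      have h1 : coeff n f * q ^ n = -∑' d, coeff (d + (n + 1)) f * q ^ (d + (n + 1)) :=
        eq_neg_of_add_eq_zero_left hsum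
      have hqpos : 0 < ‖q‖ := norm_pos_iff.2 hq0
      -- bound of the tail
      have htail : ‖∑' d, coeff (d + (n + 1)) f * q ^ (d + (n + 1))‖ ≤
          (‖q‖ / ‖q1‖) ^ (n + 1) * B := by
        have hs1 : Summable fun d => ‖coeff (d + (n + 1)) f * q ^ (d + (n + 1))‖ :=
          (summable_nat_add_iff (n + 1)).2 hSq
        refine (norm_tsum_le_tsum_norm hs1).trans ?_
        have hs2 : Summable fun d => (‖q‖ / ‖q1‖) ^ (n + 1) * ‖coeff (d + (n + 1)) f * q1 ^ (d + (n + 1))‖ :=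
          ((summable_nat_add_iff (n + 1)).2 hS).mul_left _
        have hle : ∀ d, ‖coeff (d + (n + 1)) f * q ^ (d + (n + 1))‖ ≤
            (‖q‖ / ‖q1‖) ^ (n + 1) * ‖coeff (d + (n + 1)) f * q1 ^ (d + (n + 1))‖ := by
          intro d
          rw [norm_mul, norm_mul, norm_pow, norm_pow]
          have hr : ‖q‖ / ‖q1‖ ≤ 1 := (div_le_one hq1pos).2 hq
          have hr0 : 0 ≤ ‖q‖ / ‖q1‖ := div_nonneg (norm_nonneg _) (norm_nonneg _)
          have e : ‖q‖ ^ (d + (n + 1)) = (‖q‖ / ‖q1‖) ^ (d + (n + 1)) * ‖q1‖ ^ (d + (n + 1)) := by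
            rw [div_pow, div_mul_cancel₀]
            exact pow_ne_zero _ hq1pos.ne'
          rw [e]
          have e2 : (‖q‖ / ‖q1‖) ^ (d + (n + 1)) ≤ (‖q‖ / ‖q1‖) ^ (n + 1) :=
            pow_le_pow_of_le_one hr0 hr (by omega)
          calc ‖coeff (d + (n + 1)) f‖ * ((‖q‖ / ‖q1‖) ^ (d + (n + 1)) * ‖q1‖ ^ (d + (n + 1)))
              = (‖q‖ / ‖q1‖) ^ (d + (n + 1)) * (‖coeff (d + (n + 1)) f‖ * ‖q1‖ ^ (d + (n + 1))) := by
                ring
            _ ≤ (‖q‖ / ‖q1‖) ^ (n + 1) * (‖coeff (d + (n + 1)) f‖ * ‖q1‖ ^ (d + (n + 1))) :=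
                mul_le_mul_of_nonneg_right e2 (mul_nonneg (norm_nonneg _) (by positivity))
        refine (Summable.tsum_le_tsum hle hs1 hs2).trans ?_
        rw [tsum_mul_left]
        refine mul_le_mul_of_nonneg_left ?_ (by positivity)
        rw [hB]
        have := Summable.sum_add_tsum_nat_add (n + 1) hS
        have hnn : 0 ≤ ∑ i ∈ Finset.range (n + 1), ‖coeff i f * q1 ^ i‖ :=
          Finset.sum_nonneg fun _ _ => norm_nonneg _
        linarith
      have h2 : ‖coeff n f‖ * ‖q‖ ^ n ≤ (‖q‖ / ‖q1‖) ^ (n + 1) * B := by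
        have := congrArg norm h1
        rw [norm_neg, norm_mul, norm_pow] at this
        rw [this]
        exact htail
      -- divide by `‖q‖ ^ n`
      have hqn : 0 < ‖q‖ ^ n := pow_pos hqpos n
      have h3 : (‖q‖ / ‖q1‖) ^ (n + 1) * B = ‖q‖ ^ n * (‖q‖ * B / ‖q1‖ ^ (n + 1)) := by
        rw [div_pow, pow_succ]
        field_simp
      rw [h3, mul_comm] at h2
      have h4 : ‖coeff n f‖ ≤ ‖q‖ * B / ‖q1‖ ^ (n + 1) := le_of_mul_le_mul_left h2 hqn
      rwa [le_div_iff₀ (pow_pos hq1pos _)] at h4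
    -- choose `q` small
    have hBpos : 0 < B := by
      by_contra hB'
      have hB'' : B = 0 := le_antisymm (not_lt.1 hB') hB0
      have := key q1 (norm_pos_iff.1 hq1pos) le_rfl
      rw [hB'', mul_zero] at this
      have : 0 < ‖coeff n f‖ * ‖q1‖ ^ (n + 1) := mul_pos hpos (pow_pos hq1pos _)
      linarith
    set c : ℝ := ‖coeff n f‖ * ‖q1‖ ^ (n + 1) with hc
    have hcpos : 0 < c := mul_pos hpos (pow_pos hq1pos _)
    obtain ⟨q, hqpos, hqlt⟩ := NormedField.exists_norm_lt 𝕜 (lt_min hq1pos (div_pos hcpos hBpos))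
    have hq1' : ‖q‖ ≤ ‖q1‖ := (lt_of_lt_of_le hqlt (min_le_left _ _)).le
    have hq2' : ‖q‖ < c / B := lt_of_lt_of_le hqlt (min_le_right _ _)
    have := key q (norm_pos_iff.1 hqpos) hq1'
    rw [lt_div_iff₀ hBpos] at hq2'
    linarith

end Fermat.Agent.GZ.Tate.Weq
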