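/-
GATE-Z (S15) / [MOD-beta] / GZ-MODB-WEQ (helper71), file 5: **the transfer machine**, one variable.

A polynomial relation `P ∈ ℤ[x, y, a, b]` between the four formal series
`Xf u u' w`, `Yf u u' w`, `a4f`, `a6f` (file 1) which holds ANALYTICALLY over `ℂ` — at infinitely
many `u₀ ∈ ℂ ∖ {0, 1}`, for all small `q ≠ 0` — holds FORMALLY over every commutative ring `R` and
every `u u' w : R` with `u * u' = 1`, `(1 - u) * w = 1`.

* `vec R u u' w : Fin 4 → R⟦X⟧` : the four series;  `map_aeval_vec` : naturality;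
* `absConv_aeval`, `evalPS_aeval` : evaluation commutes with integer polynomial expressions on
  absolutely convergent series (any complete normed field);
* `eq_zero_of_evalPS_eq_zero'` : identity theorem, punctured-disc form;
* `formal_of_analytic` : analytic relation for all small `q ≠ 0` ⟹ formal relation (over a
  nontrivially normed complete field);
* `UA = ℤ[t, t⁻¹, (1-t)⁻¹]`, `uA u'A wA`, `liftUA`, `eq_zero_of_forall_eval` (`UA ↪ ∏_{u₀ ∈ S} ℂ`);
* `transfer` : THE theorem.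

Mathlib + files 1, 2.
-/
import Mathlib
import Fermat.Agent.GZ.Tate.Weq.Formal
import Fermat.Agent.GZ.Tate.Weq.Eval

set_option autoImplicit false
set_option linter.unusedSectionVars false

noncomputable section

namespace Fermat.Agent.GZ.Tate.Weq

open PowerSeries

/-! ### the four series and polynomial expressions in them -/

section Vec

variable {R : Type*} [CommRing R]

/-- the four formal series `Xf`, `Yf`, `a₄`, `a₆` over `R`. -/
def vec (R : Type*) [CommRing R] (u u' w : R) : Fin 4 → R⟦X⟧ :=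
  ![Xf u u' w, Yf u u' w, map (Int.castRingHom R) a4f, map (Int.castRingHom R) a6f]

variable {S : Type*} [CommRing S] (φ : R →+* S)

theorem map_vec (u u' w : R) (i : Fin 4) :
    map φ (vec R u u' w i) = vec S (φ u) (φ u') (φ w) i := by
  fin_cases i
  · exact map_Xf φ u u' w
  · exact map_Yf φ u u' w
  · exact map_map_intCast φ a4f
  · exact map_map_intCast φ a6f

/-- naturality of integer polynomial expressions in the four series. -/
theorem map_aeval_vec (P : MvPolynomial (Fin 4) ℤ) (u u' w : R) :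
    map φ (MvPolynomial.aeval (vec R u u' w) P) =
      MvPolynomial.aeval (vec S (φ u) (φ u') (φ w)) P := by
  induction P using MvPolynomial.induction_on with
  | C a => simp
  | add p q hp hq => rw [map_add, map_add, map_add, hp, hq]
  | mul_X p i hp => rw [map_mul, map_mul, map_mul, hp, MvPolynomial.aeval_X, MvPolynomial.aeval_X,
      map_vec]

end Vec

/-! ### evaluation of polynomial expressions -/

section EvalPoly

variable {𝕜 : Type*} [NormedField 𝕜] [CompleteSpace 𝕜]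

theorem absConv_aeval {v : Fin 4 → 𝕜⟦X⟧} {q : 𝕜} (hv : ∀ i, AbsConv (v i) q)
    (P : MvPolynomial (Fin 4) ℤ) : AbsConv (MvPolynomial.aeval v P) q := by
  induction P using MvPolynomial.induction_on with
  | C a =>
    rw [MvPolynomial.aeval_C]
    have : algebraMap ℤ 𝕜⟦X⟧ a = C ((a : ℤ) : 𝕜) := by simp
    rw [this]
    exact absConv_C _ q
  | add p r hp hr => rw [map_add]; exact hp.add hr
  | mul_X p i hp => rw [map_mul, MvPolynomial.aeval_X]; exact hp.mul (hv i)

theorem evalPS_aeval {v : Fin 4 → 𝕜⟦X⟧} {q : 𝕜} (hv : ∀ i, AbsConv (v i) q)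
    (P : MvPolynomial (Fin 4) ℤ) :
    evalPS (MvPolynomial.aeval v P) q = MvPolynomial.aeval (fun i => evalPS (v i) q) P := by
  induction P using MvPolynomial.induction_on with
  | C a =>
    rw [MvPolynomial.aeval_C, MvPolynomial.aeval_C]
    have : algebraMap ℤ 𝕜⟦X⟧ a = C ((a : ℤ) : 𝕜) := by simp
    rw [this, evalPS_C]
    simp
  | add p r hp hr =>
    rw [map_add, map_add, evalPS_add (absConv_aeval hv p) (absConv_aeval hv r), hp, hr]
  | mul_X p i hp =>
    rw [map_mul, map_mul, MvPolynomial.aeval_X, MvPolynomial.aeval_X,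
      evalPS_mul (absConv_aeval hv p) (hv i), hp]

theorem absConv_X (q : 𝕜) : AbsConv (X : 𝕜⟦X⟧) q := by
  unfold AbsConv
  apply summable_of_ne_finset_zero (s := {1})
  intro d hd
  have hd' : d ≠ 1 := by simpa using hd
  rw [coeff_X, if_neg hd', zero_mul, norm_zero]

theorem evalPS_X (q : 𝕜) : evalPS (X : 𝕜⟦X⟧) q = q := by
  unfold evalPS
  rw [tsum_eq_single 1]
  · simp
  · intro d hd
    rw [coeff_X, if_neg hd, zero_mul]

end EvalPoly

/-- **identity theorem, punctured-disc form.** -/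
theorem eq_zero_of_evalPS_eq_zero' {𝕜 : Type*} [NontriviallyNormedField 𝕜] [CompleteSpace 𝕜]
    {f : 𝕜⟦X⟧} {ρ : ℝ} (hρ : 0 < ρ) (hconv : ∀ q : 𝕜, ‖q‖ < ρ → AbsConv f q)
    (h0 : ∀ q : 𝕜, q ≠ 0 → ‖q‖ < ρ → evalPS f q = 0) : f = 0 := by
  have h : (X : 𝕜⟦X⟧) * f = 0 := by
    apply eq_zero_of_evalPS_eq_zero hρ
    · intro q hq
      exact (absConv_X q).mul (hconv q hq)
    · intro q hq
      rw [evalPS_mul (absConv_X q) (hconv q hq), evalPS_X]
      by_cases hq0 : q = 0
      · rw [hq0, zero_mul]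
      · rw [h0 q hq0 hq, mul_zero]
  rcases mul_eq_zero.1 h with h | h
  · exact absurd h PowerSeries.X_ne_zero
  · exact h

/-- **analytic ⟹ formal**: if the four series converge absolutely on `‖q‖ < ρ` and the relation `P`
holds between their values at every `q ≠ 0`, `‖q‖ < ρ`, then `P` holds formally. -/
theorem formal_of_analytic {𝕜 : Type*} [NontriviallyNormedField 𝕜] [CompleteSpace 𝕜]
    (P : MvPolynomial (Fin 4) ℤ) (v : Fin 4 → 𝕜⟦X⟧) {ρ : ℝ} (hρ : 0 < ρ)
    (hconv : ∀ q : 𝕜, ‖q‖ < ρ → ∀ i, AbsConv (v i) q)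
    (hval : ∀ q : 𝕜, q ≠ 0 → ‖q‖ < ρ →
      MvPolynomial.aeval (fun i => evalPS (v i) q) P = 0) :
    MvPolynomial.aeval v P = 0 := by
  apply eq_zero_of_evalPS_eq_zero' hρ
  · intro q hq
    exact absConv_aeval (hconv q hq) P
  · intro q hq0 hq
    rw [evalPS_aeval (hconv q hq), hval q hq0 hq]

/-! ### the universal ring `ℤ[t, t⁻¹, (1 - t)⁻¹]` -/

/-- `t (1 - t) ∈ ℤ[t]`. -/
def tt : Polynomial ℤ := Polynomial.X * (1 - Polynomial.X)

/-- the universal ring `ℤ[t, t⁻¹, (1 - t)⁻¹]`. -/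
abbrev UA : Type := Localization.Away tt

/-- the inverse of `t (1 - t)` in `UA`. -/
def sA : UA := IsLocalization.Away.invSelf tt

/-- `t ∈ UA`. -/
def uA : UA := algebraMap (Polynomial ℤ) UA Polynomial.X

/-- `t⁻¹ ∈ UA`. -/
def u'A : UA := algebraMap (Polynomial ℤ) UA (1 - Polynomial.X) * sA

/-- `(1 - t)⁻¹ ∈ UA`. -/
def wA : UA := algebraMap (Polynomial ℤ) UA Polynomial.X * sA

theorem algebraMap_tt_mul_sA : algebraMap (Polynomial ℤ) UA tt * sA = 1 :=
  IsLocalization.Away.mul_invSelf tt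

theorem algebraMap_tt : algebraMap (Polynomial ℤ) UA tt =
    algebraMap (Polynomial ℤ) UA Polynomial.X * algebraMap (Polynomial ℤ) UA (1 - Polynomial.X) := by
  show algebraMap (Polynomial ℤ) UA (Polynomial.X * (1 - Polynomial.X)) = _
  rw [map_mul]

theorem uA_mul_u'A : uA * u'A = 1 := by
  have := algebraMap_tt_mul_sA
  rw [algebraMap_tt] at this
  rw [uA, u'A, ← mul_assoc]
  exact this

theorem one_sub_uA_mul_wA : (1 - uA) * wA = 1 := by
  have := algebraMap_tt_mul_sA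
  rw [algebraMap_tt] at this
  have h1 : (1 : UA) - uA = algebraMap (Polynomial ℤ) UA (1 - Polynomial.X) := by
    rw [uA, map_sub, map_one]
  rw [h1, wA, ← mul_assoc, mul_comm (algebraMap (Polynomial ℤ) UA (1 - Polynomial.X)) _]
  exact this

section Lift

variable {R : Type*} [CommRing R] (u u' w : R) (h1 : u * u' = 1) (h2 : (1 - u) * w = 1)

/-- the ring homomorphism `ℤ[t] → R`, `t ↦ u`. -/
def evZ (u : R) : Polynomial ℤ →+* R := Polynomial.eval₂RingHom (Int.castRingHom R) u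

theorem evZ_X (u : R) : evZ u Polynomial.X = u := by simp [evZ]

theorem evZ_tt (u : R) : evZ u tt = u * (1 - u) := by simp [evZ, tt]

include h1 h2 in
theorem isUnit_evZ_tt : IsUnit (evZ u tt) := by
  rw [evZ_tt]
  refine IsUnit.of_mul_eq_one (u' * w) ?_
  calc u * (1 - u) * (u' * w) = (u * u') * ((1 - u) * w) := by ring
    _ = 1 := by rw [h1, h2, one_mul]

/-- the universal property: `UA → R`, `t ↦ u`. -/
def liftUA : UA →+* R := IsLocalization.Away.lift tt (isUnit_evZ_tt u u' w h1 h2)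

theorem liftUA_algebraMap (p : Polynomial ℤ) :
    liftUA u u' w h1 h2 (algebraMap (Polynomial ℤ) UA p) = evZ u p :=
  IsLocalization.Away.lift_eq tt (isUnit_evZ_tt u u' w h1 h2) p

theorem liftUA_uA : liftUA u u' w h1 h2 uA = u := by
  rw [uA, liftUA_algebraMap, evZ_X]

theorem liftUA_sA : liftUA u u' w h1 h2 sA = u' * w := by
  have h := congrArg (liftUA u u' w h1 h2) algebraMap_tt_mul_sA
  rw [map_mul, liftUA_algebraMap, evZ_tt, map_one] at h
  have h3 : (u' * w) * (u * (1 - u)) = 1 := by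
    calc (u' * w) * (u * (1 - u)) = (u * u') * ((1 - u) * w) := by ring
      _ = 1 := by rw [h1, h2, one_mul]
  calc liftUA u u' w h1 h2 sA
      = ((u' * w) * (u * (1 - u))) * liftUA u u' w h1 h2 sA := by rw [h3, one_mul]
    _ = (u' * w) * (u * (1 - u) * liftUA u u' w h1 h2 sA) := by ring
    _ = u' * w := by rw [h, mul_one]

theorem liftUA_u'A : liftUA u u' w h1 h2 u'A = u' := by
  rw [u'A, map_mul, liftUA_algebraMap, liftUA_sA]
  have : evZ u (1 - Polynomial.X) = 1 - u := by simp [evZ]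
  rw [this]
  calc (1 - u) * (u' * w) = u' * ((1 - u) * w) := by ring
    _ = u' := by rw [h2, mul_one]

theorem liftUA_wA : liftUA u u' w h1 h2 wA = w := by
  rw [wA, map_mul, liftUA_algebraMap, liftUA_sA, evZ_X]
  calc u * (u' * w) = (u * u') * w := by ring
    _ = w := by rw [h1, one_mul]

end Lift

/-! ### `UA ↪ ∏_{u₀ ∈ S} ℂ` -/

/-- the point `u₀ ∈ ℂ ∖ {0, 1}` as a ring homomorphism `UA → ℂ`. -/
def liftC (u₀ : ℂ) (h0 : u₀ ≠ 0) (h1 : u₀ ≠ 1) : UA →+* ℂ :=
  liftUA u₀ u₀⁻¹ (1 - u₀)⁻¹ (mul_inv_cancel₀ h0) (mul_inv_cancel₀ (sub_ne_zero.2 (Ne.symm h1)))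

theorem liftC_uA (u₀ : ℂ) (h0 : u₀ ≠ 0) (h1 : u₀ ≠ 1) : liftC u₀ h0 h1 uA = u₀ :=
  liftUA_uA _ _ _ _ _

theorem liftC_u'A (u₀ : ℂ) (h0 : u₀ ≠ 0) (h1 : u₀ ≠ 1) : liftC u₀ h0 h1 u'A = u₀⁻¹ :=
  liftUA_u'A _ _ _ _ _

theorem liftC_wA (u₀ : ℂ) (h0 : u₀ ≠ 0) (h1 : u₀ ≠ 1) : liftC u₀ h0 h1 wA = (1 - u₀)⁻¹ :=
  liftUA_wA _ _ _ _ _

/-- an element of `UA` vanishing at infinitely many complex points is zero. -/
theorem eq_zero_of_forall_liftC (a : UA) (S : Set ℂ) (hS : S.Infinite)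
    (h : ∀ u₀ ∈ S, ∃ (h0 : u₀ ≠ 0) (h1 : u₀ ≠ 1), liftC u₀ h0 h1 a = 0) : a = 0 := by
  obtain ⟨n, p, hp⟩ := IsLocalization.Away.surj tt a
  have hp0 : p = 0 := by
    have hinj : Function.Injective (Polynomial.map (Int.castRingHom ℂ)) :=
      Polynomial.map_injective _ Int.cast_injective
    apply hinj
    rw [Polynomial.map_zero]
    apply Polynomial.eq_zero_of_infinite_isRoot
    refine hS.mono ?_
    intro u₀ hu
    obtain ⟨h0, h1, ha⟩ := h u₀ hu
    have h2 := congrArg (liftC u₀ h0 h1) hp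
    rw [map_mul, ha, zero_mul] at h2
    have h3 : liftC u₀ h0 h1 (algebraMap (Polynomial ℤ) UA p) = evZ u₀ p :=
      liftUA_algebraMap _ _ _ _ _ p
    rw [h3] at h2
    show Polynomial.IsRoot _ _
    rw [Polynomial.IsRoot, Polynomial.eval_map]
    exact h2.symm
  rw [hp0, map_zero] at hp
  have hu : IsUnit (algebraMap (Polynomial ℤ) UA tt ^ n) :=
    (IsUnit.of_mul_eq_one _ algebraMap_tt_mul_sA).pow n
  exact (hu.mul_left_eq_zero).1 hp

/-! ### the transfer theorem -/

/-- a power series over `UA` vanishing at infinitely many complex points is zero. -/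
theorem eq_zero_of_forall_map_liftC (F : UA⟦X⟧) (S : Set ℂ) (hS : S.Infinite)
    (h : ∀ u₀ ∈ S, ∃ (h0 : u₀ ≠ 0) (h1 : u₀ ≠ 1), map (liftC u₀ h0 h1) F = 0) : F = 0 := by
  ext n
  rw [map_zero]
  apply eq_zero_of_forall_liftC _ S hS
  intro u₀ hu
  obtain ⟨h0, h1, hF⟩ := h u₀ hu
  refine ⟨h0, h1, ?_⟩
  have h4 := congrArg (coeff n) hF
  rw [coeff_map, map_zero] at h4
  exact h4

/-- **transfer, one variable.** A polynomial relation `P` between `Xf`, `Yf`, `a₄`, `a₆` which holds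
formally over `ℂ` at infinitely many `u₀ ∈ ℂ ∖ {0, 1}` holds formally over every commutative ring. -/
theorem transfer (P : MvPolynomial (Fin 4) ℤ) (S : Set ℂ) (hS : S.Infinite)
    (h01 : ∀ u₀ ∈ S, u₀ ≠ 0 ∧ u₀ ≠ 1)
    (h : ∀ u₀ ∈ S, MvPolynomial.aeval (vec ℂ u₀ u₀⁻¹ (1 - u₀)⁻¹) P = 0)
    {R : Type*} [CommRing R] (u u' w : R) (h1 : u * u' = 1) (h2 : (1 - u) * w = 1) :
    MvPolynomial.aeval (vec R u u' w) P = 0 := by
  have h3 := map_aeval_vec (liftUA u u' w h1 h2) P uA u'A wA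
  rw [liftUA_uA, liftUA_u'A, liftUA_wA] at h3
  rw [← h3]
  convert map_zero (map (liftUA u u' w h1 h2))
  apply eq_zero_of_forall_map_liftC _ S hS
  intro u₀ hu
  refine ⟨(h01 u₀ hu).1, (h01 u₀ hu).2, ?_⟩
  have h5 := map_aeval_vec (liftC u₀ (h01 u₀ hu).1 (h01 u₀ hu).2) P uA u'A wA
  rw [liftC_uA, liftC_u'A, liftC_wA, h u₀ hu] at h5
  exact h5

end Fermat.Agent.GZ.Tate.Weq
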