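/-
GATE-Z (S15) / [MOD-beta] WEQ, the `g₂ / g₃` half of the ℂ-bridge (helper3; helper71 5962 §1).

Over `ℂ`, `L := pairOne T` (`DS/P1/WpRows`, the period pair `(1, T)`), `q := cexp (2πi T)`, in the
vocabulary of `GZ/Tate/Defs.lean` (`sK k q = ∑_{n ≥ 1} n^k qⁿ/(1 - qⁿ)`, defined over any normed field):

* `g₂_eq : L.g₂ = (2πi)⁴ (1 + 240 s₃(q)) / 12`;
* `g₃_eq : L.g₃ = (2πi)⁶ (-1 + 504 s₅(q)) / 216`;
* `sK_eq_tsum_sigma : sK k q = ∑' n : ℕ+, σ_k(n) qⁿ` (`‖q‖ < 1`), `summable_sTerm`;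
* `a4_eq_complex : a4 q = -5 s₃(q)` and `twelve_mul_a6 : 12 a6 q = -(5 s₃(q) + 7 s₅(q))` (`‖q‖ < 1`).
-/
import Mathlib
import Fermat.Agent.DS.P1.WpRows
import Fermat.Agent.S20_helper41.JInjective
import Fermat.Agent.GZ.Tate.Defs

set_option autoImplicit false

noncomputable section

namespace Fermat.Agent.GZ.Tate.Weq.G23

open Complex PeriodPair ModularForm EisensteinSeries
open UpperHalfPlane hiding I
open scoped Real ArithmeticFunction.sigma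
open Fermat.Agent.DS.P1.WpRows Fermat.Agent.S20_helper41

/-! ### the lattice sums of `(1, T)` -/

theorem lattice_pairOne (T : ℍ) : (pairOne T).lattice = (tauPair T).lattice := by
  simp only [PeriodPair.lattice, pairOne, tauPair]
  rw [Set.pair_comm]

theorem G_congr {L L' : PeriodPair} (h : L.lattice = L'.lattice) (n : ℕ) : L.G n = L'.G n := by
  unfold PeriodPair.G
  rw [h]

theorem pairOne_G {k : ℕ} (hk : 3 ≤ k) (T : ℍ) :
    (pairOne T).G k = 2 * riemannZeta k * E hk T := by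
  rw [G_congr (lattice_pairOne T), tauPair_G_eq_E hk T]

theorem riemannZeta_six : riemannZeta 6 = (π : ℂ) ^ 6 / 945 := by
  have h := riemannZeta_two_mul_nat (k := 3) (by norm_num)
  have hb : bernoulli 6 = 1 / 42 := by decide +kernel
  norm_num [hb, Nat.factorial] at h
  rw [h]
  ring

/-! ### Lambert series over `ℂ` -/

theorem summable_sTerm (k : ℕ) {q : ℂ} (hq : ‖q‖ < 1) : Summable (sTerm k q) := by
  have h := summable_norm_pow_mul_geometric_div_one_sub (𝕜 := ℂ) k hq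
  have h2 := (summable_nat_add_iff 1).mpr h
  refine h2.congr fun n => ?_
  simp [sTerm]

theorem sK_eq_tsum_pnat (k : ℕ) (q : ℂ) :
    sK k q = ∑' n : ℕ+, ((n : ℕ) : ℂ) ^ k * q ^ (n : ℕ) / (1 - q ^ (n : ℕ)) := by
  rw [sK, tsum_pnat_eq_tsum_succ (f := fun n : ℕ => (n : ℂ) ^ k * q ^ n / (1 - q ^ n))]
  refine tsum_congr fun n => ?_
  simp [sTerm]

/-- `s_k(q) = ∑_{n ≥ 1} σ_k(n) qⁿ` over `ℂ`. -/
theorem sK_eq_tsum_sigma (k : ℕ) {q : ℂ} (hq : ‖q‖ < 1) :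
    sK k q = ∑' n : ℕ+, ((σ k n : ℕ) : ℂ) * q ^ (n : ℕ) := by
  rw [sK_eq_tsum_pnat, ← tsum_pow_div_one_sub_eq_tsum_sigma hq k]

/-! ### `E₄`, `E₆` -/

theorem norm_qT_lt_one (T : ℍ) : ‖cexp (2 * π * I * T)‖ < 1 :=
  norm_exp_two_pi_I_lt_one T

theorem E₄_eq (T : ℍ) : E₄ T = 1 + 240 * sK 3 (cexp (2 * π * I * T)) := by
  have h := q_expansion_bernoulli (k := 4) (by norm_num) ⟨2, rfl⟩ T
  have hb : bernoulli 4 = -1 / 30 := by decide +kernel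
  rw [sK_eq_tsum_sigma 3 (norm_qT_lt_one T)]
  simp only [zpow_natCast] at h
  rw [show E₄ T = E (by norm_num : 3 ≤ 4) T from rfl, h, hb]
  norm_num

theorem E₆_eq (T : ℍ) : E₆ T = 1 - 504 * sK 5 (cexp (2 * π * I * T)) := by
  have h := q_expansion_bernoulli (k := 6) (by norm_num) ⟨3, rfl⟩ T
  have hb : bernoulli 6 = 1 / 42 := by decide +kernel
  rw [sK_eq_tsum_sigma 5 (norm_qT_lt_one T)]
  simp only [zpow_natCast] at h
  rw [show E₆ T = E (by norm_num : 3 ≤ 6) T from rfl, h, hb]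
  norm_num

/-! ### `g₂`, `g₃` -/

/-- **`g₂(1, T) = (2πi)⁴ (1 + 240 s₃(q)) / 12`.** -/
theorem g₂_eq (T : ℍ) :
    (pairOne T).g₂ = (2 * π * I) ^ 4 * (1 + 240 * sK 3 (cexp (2 * π * I * T))) / 12 := by
  rw [PeriodPair.g₂, pairOne_G (by norm_num : 3 ≤ 4) T, ← E₄_eq T]
  have h4 : ((4 : ℕ) : ℂ) = 4 := by norm_num
  rw [h4, riemannZeta_four]
  have hI : (2 * (π : ℂ) * I) ^ 4 = 16 * (π : ℂ) ^ 4 := by
    rw [mul_pow, mul_pow, I_pow_four]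
    ring
  rw [hI]
  show 60 * (2 * ((π : ℂ) ^ 4 / 90) * E₄ T) = 16 * (π : ℂ) ^ 4 * E₄ T / 12
  ring

/-- **`g₃(1, T) = (2πi)⁶ (-1 + 504 s₅(q)) / 216`.** -/
theorem g₃_eq (T : ℍ) :
    (pairOne T).g₃ = (2 * π * I) ^ 6 * (-1 + 504 * sK 5 (cexp (2 * π * I * T))) / 216 := by
  have hE : -1 + 504 * sK 5 (cexp (2 * π * I * T)) = -E₆ T := by
    rw [E₆_eq T]; ring
  rw [PeriodPair.g₃, pairOne_G (by norm_num : 3 ≤ 6) T, hE]
  have h6 : ((6 : ℕ) : ℂ) = 6 := by norm_num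
  rw [h6, riemannZeta_six]
  have hI : (2 * (π : ℂ) * I) ^ 6 = -64 * (π : ℂ) ^ 6 := by
    have : I ^ 6 = -1 := by
      rw [show (6 : ℕ) = 2 * 3 by norm_num, pow_mul, I_sq]
      norm_num
    rw [mul_pow, mul_pow, this]
    ring
  rw [hI]
  show 140 * (2 * ((π : ℂ) ^ 6 / 945) * E₆ T) = -64 * (π : ℂ) ^ 6 * (-E₆ T) / 216
  ring

/-! ### `a₄`, `a₆` of the pin over `ℂ` -/

theorem a4_eq_complex (q : ℂ) : a4 q = -5 * sK 3 q := rfl

theorem summable_a6Term {q : ℂ} (hq : ‖q‖ < 1) : Summable (a6Term q) := by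
  have h3 := (summable_sTerm 3 hq).mul_left (5 / 12 : ℂ)
  have h5 := (summable_sTerm 5 hq).mul_left (7 / 12 : ℂ)
  refine (h3.add h5).congr fun n => ?_
  have hspec := a6Coeff_spec (n + 1)
  have hc : (12 : ℂ) * (a6Coeff (n + 1) : ℂ) = 5 * ((n + 1 : ℕ) : ℂ) ^ 3 + 7 * ((n + 1 : ℕ) : ℂ) ^ 5 := by
    exact_mod_cast congrArg (Nat.cast (R := ℂ)) hspec
  have hc' : (a6Coeff (n + 1) : ℂ) = 5 / 12 * ((n + 1 : ℕ) : ℂ) ^ 3 + 7 / 12 * ((n + 1 : ℕ) : ℂ) ^ 5 := by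
    linear_combination (1 / 12 : ℂ) * hc
  rw [a6Term, sTerm, sTerm, hc']
  ring

/-- **`12 a₆(q) = -(5 s₃(q) + 7 s₅(q))`** over `ℂ`. -/
theorem twelve_mul_a6 {q : ℂ} (hq : ‖q‖ < 1) : 12 * a6 q = -(5 * sK 3 q + 7 * sK 5 q) := by
  have h3 := (summable_sTerm 3 hq).hasSum.mul_left (5 : ℂ)
  have h5 := (summable_sTerm 5 hq).hasSum.mul_left (7 : ℂ)
  have h6 := (summable_a6Term hq).hasSum.mul_left (12 : ℂ)
  have h35 := h3.add h5
  have hfun : (fun n => 12 * a6Term q n) = fun n => 5 * sTerm 3 q n + 7 * sTerm 5 q n := by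
    funext n
    have hspec := a6Coeff_spec (n + 1)
    have hc : (12 : ℂ) * (a6Coeff (n + 1) : ℂ)
        = 5 * ((n + 1 : ℕ) : ℂ) ^ 3 + 7 * ((n + 1 : ℕ) : ℂ) ^ 5 := by
      exact_mod_cast congrArg (Nat.cast (R := ℂ)) hspec
    rw [a6Term, sTerm, sTerm]
    linear_combination (q ^ (n + 1) / (1 - q ^ (n + 1))) * hc
  rw [hfun] at h6
  have := h6.unique h35
  rw [a6, sK, sK]
  linear_combination -this

end Fermat.Agent.GZ.Tate.Weq.G23
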