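/-
GATE-Z (S15) / [MOD-beta] / GZ-MODB-WEQ (helper71), file 7: the Weierstrass polynomial and the three
reductions of the Weierstrass equation of the Tate curve.

`Pweq = y² + x y - (x³ + a x + b) ∈ ℤ[x, y, a, b]`, so that `WeqF u u' w ↔ aeval (vec R u u' w) Pweq = 0`.

* `weqF_of_analytic`  : over a complete nontrivially normed field, at a FIXED `(u, u', w)`: if the four
  series converge absolutely for `‖q‖ < ρ` and their values satisfy the Weierstrass equation for all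
  `q ≠ 0`, `‖q‖ < ρ`, then the FORMAL Weierstrass equation `WeqF u u' w` holds;
* `weqF_of_complex`   : `WeqF` at infinitely many `u₀ ∈ ℂ ∖ {0, 1}` ⟹ `WeqF` over every commutative
  ring, for every `(u, u', w)` with `u u' = 1`, `(1 - u) w = 1`;
* `eval_weqF`         : `WeqF u u' w` + absolute convergence at `q` ⟹ the values satisfy the Weierstrass
  equation (any complete normed field).

Mathlib + files 1, 2, 5.
-/
import Mathlib
import Fermat.Agent.GZ.Tate.Weq.Universal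

set_option autoImplicit false
set_option linter.unusedSectionVars false

noncomputable section

namespace Fermat.Agent.GZ.Tate.Weq

open PowerSeries

/-- the Weierstrass polynomial `y² + x y - (x³ + a x + b)`, variables `x = 0`, `y = 1`, `a = 2`,
`b = 3`. -/
def Pweq : MvPolynomial (Fin 4) ℤ :=
  MvPolynomial.X 1 ^ 2 + MvPolynomial.X 0 * MvPolynomial.X 1 -
    (MvPolynomial.X 0 ^ 3 + MvPolynomial.X 2 * MvPolynomial.X 0 + MvPolynomial.X 3)

theorem aeval_Pweq {A : Type*} [CommRing A] [Algebra ℤ A] (v : Fin 4 → A) :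
    MvPolynomial.aeval v Pweq = v 1 ^ 2 + v 0 * v 1 - (v 0 ^ 3 + v 2 * v 0 + v 3) := by
  simp only [Pweq, map_sub, map_add, map_mul, map_pow, MvPolynomial.aeval_X]

theorem aeval_vec_Pweq {R : Type*} [CommRing R] (u u' w : R) :
    MvPolynomial.aeval (vec R u u' w) Pweq =
      Yf u u' w ^ 2 + Xf u u' w * Yf u u' w -
        (Xf u u' w ^ 3 + map (Int.castRingHom R) a4f * Xf u u' w + map (Int.castRingHom R) a6f) := by
  rw [aeval_Pweq]
  rfl

theorem weqF_iff_aeval {R : Type*} [CommRing R] (u u' w : R) :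
    WeqF u u' w ↔ MvPolynomial.aeval (vec R u u' w) Pweq = 0 := by
  rw [aeval_vec_Pweq, sub_eq_zero]
  rfl

/-- **analytic ⟹ formal**, at a fixed point. -/
theorem weqF_of_analytic {𝕜 : Type*} [NontriviallyNormedField 𝕜] [CompleteSpace 𝕜] (u u' w : 𝕜)
    {ρ : ℝ} (hρ : 0 < ρ)
    (hconv : ∀ q : 𝕜, ‖q‖ < ρ → ∀ i, AbsConv (vec 𝕜 u u' w i) q)
    (hval : ∀ q : 𝕜, q ≠ 0 → ‖q‖ < ρ →
      evalPS (Yf u u' w) q ^ 2 + evalPS (Xf u u' w) q * evalPS (Yf u u' w) q =
        evalPS (Xf u u' w) q ^ 3 + evalPS (map (Int.castRingHom 𝕜) a4f) q * evalPS (Xf u u' w) q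
          + evalPS (map (Int.castRingHom 𝕜) a6f) q) :
    WeqF u u' w := by
  rw [weqF_iff_aeval]
  apply formal_of_analytic Pweq (vec 𝕜 u u' w) hρ hconv
  intro q hq0 hq
  rw [aeval_Pweq, sub_eq_zero]
  exact hval q hq0 hq

/-- **`ℂ` ⟹ every ring.** -/
theorem weqF_of_complex (S : Set ℂ) (hS : S.Infinite) (h01 : ∀ u₀ ∈ S, u₀ ≠ 0 ∧ u₀ ≠ 1)
    (h : ∀ u₀ ∈ S, WeqF u₀ u₀⁻¹ (1 - u₀)⁻¹)
    {R : Type*} [CommRing R] (u u' w : R) (h1 : u * u' = 1) (h2 : (1 - u) * w = 1) :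
    WeqF u u' w := by
  rw [weqF_iff_aeval]
  apply transfer Pweq S hS h01 _ u u' w h1 h2
  intro u₀ hu
  rw [← weqF_iff_aeval]
  exact h u₀ hu

/-- **formal ⟹ values.** -/
theorem eval_weqF {𝕜 : Type*} [NormedField 𝕜] [CompleteSpace 𝕜] {u u' w : 𝕜} (h : WeqF u u' w)
    {q : 𝕜} (hconv : ∀ i, AbsConv (vec 𝕜 u u' w i) q) :
    evalPS (Yf u u' w) q ^ 2 + evalPS (Xf u u' w) q * evalPS (Yf u u' w) q =
      evalPS (Xf u u' w) q ^ 3 + evalPS (map (Int.castRingHom 𝕜) a4f) q * evalPS (Xf u u' w) q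
        + evalPS (map (Int.castRingHom 𝕜) a6f) q := by
  have h0 := (weqF_iff_aeval u u' w).1 h
  have h1 := evalPS_aeval hconv Pweq
  rw [h0, aeval_Pweq] at h1
  have h2 : evalPS (0 : 𝕜⟦X⟧) q = 0 := by
    have := evalPS_C (0 : 𝕜) q
    rwa [map_zero] at this
  rw [h2] at h1
  exact sub_eq_zero.1 h1.symm

end Fermat.Agent.GZ.Tate.Weq
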