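/-
GATE-Z (S15) / [MOD-beta] / GZ-MODB-WEQ (helper71), file 8: **the Weierstrass equation of the Tate
curve over a complete ultrametric field**, from two inputs stated as hypotheses:

* `LambertAt 𝕜` : the four formal series evaluate (absolutely convergently) to the analytic functions
  `Tate.X q u`, `Tate.Y q u`, `Tate.a4 q`, `Tate.a6 q` on the annulus `‖q‖ < ‖u‖ < ‖q‖⁻¹`, `u ≠ 1`
  (= helper64's `GZ/Tate/T2/Lambert.lean`, a statement about any complete normed field);
* `FormalWeq` : the formal Weierstrass equation `WeqF u u' w` over every commutative ring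
  (= `weqF_of_complex` + the `ℂ`-side, file 9).

`equation_of_annulus` : the equation on the annulus;  `equation` : on all of `IsAdm q u` (shift by
`q^n`, helper72's `X_zpow_mul`, `Y_zpow_mul`);  `nonsingular` : with `Δ(E_q) ≠ 0` (T0 bridge).
-/
import Mathlib
import Fermat.Agent.GZ.Tate.Weq.Poly
import Fermat.Agent.GZ.Tate.Conv
import Fermat.Agent.GZ.Tate.T1.Unit
import Fermat.Agent.GZ.Tate.T0.Bridge

set_option autoImplicit false
set_option linter.unusedSectionVars false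

noncomputable section

namespace Fermat.Agent.GZ.Tate.Weq

open PowerSeries

universe v

/-- the evaluation of the four formal series on the annulus, over the complete normed field `𝕜`. -/
def LambertAt (𝕜 : Type*) [NormedField 𝕜] : Prop :=
  ∀ q u : 𝕜, q ≠ 0 → ‖q‖ < 1 → ‖q‖ < ‖u‖ → ‖u‖ * ‖q‖ < 1 → u ≠ 1 →
    (∀ i, AbsConv (vec 𝕜 u u⁻¹ (1 - u)⁻¹ i) q) ∧
      evalPS (Xf u u⁻¹ (1 - u)⁻¹) q = Tate.X q u ∧ evalPS (Yf u u⁻¹ (1 - u)⁻¹) q = Tate.Y q u ∧
      evalPS (map (Int.castRingHom 𝕜) a4f) q = Tate.a4 q ∧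
      evalPS (map (Int.castRingHom 𝕜) a6f) q = Tate.a6 q

/-- the formal Weierstrass equation over every commutative ring (in a fixed universe). -/
def FormalWeq : Prop :=
  ∀ (R : Type v) [CommRing R] (u u' w : R), u * u' = 1 → (1 - u) * w = 1 → WeqF u u' w

section Field

variable {𝕜 : Type v} [NormedField 𝕜] [CompleteSpace 𝕜]

/-- the Weierstrass relation on the annulus, any complete normed field. -/
theorem relation_of_annulus (hL : LambertAt 𝕜) (hF : FormalWeq.{v})
    {q u : 𝕜} (hq0 : q ≠ 0) (hq1 : ‖q‖ < 1) (hu1 : ‖q‖ < ‖u‖) (hu2 : ‖u‖ * ‖q‖ < 1) (hu : u ≠ 1) :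
    Tate.Y q u ^ 2 + Tate.X q u * Tate.Y q u =
      Tate.X q u ^ 3 + Tate.a4 q * Tate.X q u + Tate.a6 q := by
  obtain ⟨hconv, hX, hY, h4, h6⟩ := hL q u hq0 hq1 hu1 hu2 hu
  have hu0 : u ≠ 0 := by
    intro h
    rw [h, norm_zero] at hu1
    exact absurd hu1 (not_lt.2 (norm_nonneg q))
  have h1u : (1 : 𝕜) - u ≠ 0 := sub_ne_zero.2 (Ne.symm hu)
  have hW := hF 𝕜 u u⁻¹ (1 - u)⁻¹ (mul_inv_cancel₀ hu0) (mul_inv_cancel₀ h1u)
  have h := eval_weqF hW hconv
  rw [hX, hY, h4, h6] at h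
  exact h

end Field

section Ultrametric

variable {K : Type v} [NormedField K] [IsUltrametricDist K] [CompleteSpace K]

theorem equation_iff_relation (q x y : K) :
    (Tate.tateCurve q).toAffine.Equation x y ↔
      y ^ 2 + x * y = x ^ 3 + Tate.a4 q * x + Tate.a6 q := by
  rw [WeierstrassCurve.Affine.equation_iff]
  simp only [Tate.tateCurve]
  constructor
  · intro h
    linear_combination h
  · intro h
    linear_combination h

/-- **the Weierstrass equation of the Tate curve**: `(X(u,q), Y(u,q)) ∈ E_q` for every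
`u ∈ K^× ∖ q^ℤ`. -/
theorem equation_of (hL : LambertAt K) (hF : FormalWeq.{v})
    {q u : K} (hq0 : q ≠ 0) (hq1 : ‖q‖ < 1) (hu : Tate.IsAdm q u) :
    (Tate.tateCurve q).toAffine.Equation (Tate.X q u) (Tate.Y q u) := by
  obtain ⟨n, hn1, hn2⟩ := Tate.exists_zpow_mul_mem_annulus hq0 hq1 hu.1
  have hne : q ^ n * u ≠ 1 := hu.2 n
  have hlt : ‖q ^ n * u‖ * ‖q‖ < 1 := by
    calc ‖q ^ n * u‖ * ‖q‖ ≤ 1 * ‖q‖ := mul_le_mul_of_nonneg_right hn2 (norm_nonneg q)
      _ = ‖q‖ := one_mul _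
      _ < 1 := hq1
  have h := relation_of_annulus hL hF hq0 hq1 hn1 hlt hne
  rw [Tate.X_zpow_mul hq0, Tate.Y_zpow_mul hq0] at h
  exact (equation_iff_relation q _ _).2 h

/-- **nonsingularity**: the binder `hns` of `T2/Hom.lean`. -/
theorem nonsingular_of (hL : LambertAt K) (hF : FormalWeq.{v})
    {q : K} (hq0 : q ≠ 0) (hq1 : ‖q‖ < 1) (u : K) (hu : Tate.IsAdm q u) :
    (Tate.tateCurve q).toAffine.Nonsingular (Tate.X q u) (Tate.Y q u) := by
  have hΔ : (Tate.tateCurve q).Δ ≠ 0 := T0.pinned_Δ_ne_zero q hq1 hq0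
  exact (WeierstrassCurve.Affine.equation_iff_nonsingular_of_Δ_ne_zero hΔ).1
    (equation_of hL hF hq0 hq1 hu)

end Ultrametric

end Fermat.Agent.GZ.Tate.Weq
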