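/-
GATE-Z (S15) / [MOD-beta] / GZ-MODB-WEQ (helper71), file 6: elementary complex preliminaries.

* `weq_algebra` : the Weierstrass equation of the Tate curve is the Weierstrass differential equation
  `℘'² = 4℘³ - g₂℘ - g₃` rewritten in `X = ℘/c² - 1/12`, `X + 2Y = ℘'/c³` (`c = 2πi`), with
  `g₂ = c⁴(1 + 240 s₃)/12`, `g₃ = c⁶(-1 + 504 s₅)/216` (pure algebra);
* `exists_strip` : every `(q, u) ∈ ℂ²` with `0 < ‖q‖ < ‖u‖ < ‖q‖⁻¹`, `u ≠ 1` is
  `(e(T), e(z))` with `T ∈ ℍ`, `|Im z| < Im T`, `z ∉ ℤ`;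
* `not_mem_lattice` : such a `z` is not in the lattice `ℤ + ℤ T`.

Mathlib + `DS/P1/WpRows` (`pairOne`).
-/
import Mathlib
import Fermat.Agent.DS.P1.WpRows

set_option autoImplicit false

noncomputable section

namespace Fermat.Agent.GZ.Tate.Weq

open Complex
open UpperHalfPlane hiding I
open scoped Real
open Fermat.Agent.DS.P1.WpRows

/-- **pure algebra**: the differential equation of `℘` in the coordinates `X`, `Y`. -/
theorem weq_algebra {c P P' X Y s3 s5 g2 g3 a4 a6 : ℂ} (hc : c ≠ 0)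
    (hX : X = P / c ^ 2 - 1 / 12) (hXY : X + 2 * Y = P' / c ^ 3)
    (hrel : P' ^ 2 = 4 * P ^ 3 - g2 * P - g3)
    (hg2 : g2 = c ^ 4 * (1 + 240 * s3) / 12) (hg3 : g3 = c ^ 6 * (-1 + 504 * s5) / 216)
    (ha4 : a4 = -5 * s3) (ha6 : 12 * a6 = -(5 * s3 + 7 * s5)) :
    Y ^ 2 + X * Y = X ^ 3 + a4 * X + a6 := by
  have hP : P = c ^ 2 * (X + 1 / 12) := by
    rw [hX]; field_simp; ring
  have hP' : P' = c ^ 3 * (X + 2 * Y) := by
    rw [hXY]; field_simp
  rw [hP, hP', hg2, hg3] at hrel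
  have hc6 : c ^ 6 ≠ 0 := pow_ne_zero 6 hc
  have h : c ^ 6 * (4 * (Y ^ 2 + X * Y) - 4 * (X ^ 3 + a4 * X + a6)) = 0 := by
    rw [ha4]
    linear_combination hrel - (c ^ 6 / 3) * ha6
  rcases mul_eq_zero.1 h with h | h
  · exact absurd h hc6
  · linear_combination h / 4

theorem two_pi_I_ne_zero' : (2 * (π : ℂ) * I) ≠ 0 := by
  have hpi : (π : ℂ) ≠ 0 := by exact_mod_cast Real.pi_ne_zero
  exact mul_ne_zero (mul_ne_zero (by norm_num) hpi) I_ne_zero

/-- imaginary part of `log w / (2πi)`. -/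
theorem im_log_div (w : ℂ) : (Complex.log w / (2 * π * I)).im = -Real.log ‖w‖ / (2 * π) := by
  have h : Complex.log w / (2 * π * I) = -(Complex.log w * I) / (2 * π) := by
    have hpi : (π : ℂ) ≠ 0 := by exact_mod_cast Real.pi_ne_zero
    field_simp
    rw [I_sq]; ring
  rw [h]
  have h2 : ((2 : ℂ) * π) = ((2 * π : ℝ) : ℂ) := by push_cast; ring
  rw [h2, Complex.div_ofReal_im, Complex.neg_im, Complex.mul_I_im, Complex.log_re]

theorem cexp_log_div {w : ℂ} (hw : w ≠ 0) : cexp (2 * π * I * (Complex.log w / (2 * π * I))) = w := by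
  rw [mul_div_cancel₀ _ two_pi_I_ne_zero', Complex.exp_log hw]

/-- **uniformisation of the annulus**. -/
theorem exists_strip (q u : ℂ) (hq0 : q ≠ 0) (hq1 : ‖q‖ < 1) (hu1 : ‖q‖ < ‖u‖)
    (hu2 : ‖u‖ * ‖q‖ < 1) (hu : u ≠ 1) :
    ∃ (T : ℍ) (z : ℂ), cexp (2 * π * I * T) = q ∧ cexp (2 * π * I * z) = u ∧
      |z.im| < T.im ∧ ∀ n : ℤ, z ≠ n := by
  have hqpos : 0 < ‖q‖ := norm_pos_iff.2 hq0
  have hupos : 0 < ‖u‖ := lt_trans hqpos hu1
  have hu0 : u ≠ 0 := norm_pos_iff.1 hupos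
  have hlq : Real.log ‖q‖ < 0 := Real.log_neg hqpos hq1
  have h2pi : 0 < 2 * π := by positivity
  have hTim : 0 < (Complex.log q / (2 * π * I)).im := by
    rw [im_log_div]
    exact div_pos (by linarith) h2pi
  refine ⟨⟨Complex.log q / (2 * π * I), hTim⟩, Complex.log u / (2 * π * I), ?_, ?_, ?_, ?_⟩
  · exact cexp_log_div hq0
  · exact cexp_log_div hu0
  · show |(Complex.log u / (2 * π * I)).im| < (Complex.log q / (2 * π * I)).im
    rw [im_log_div, im_log_div, abs_lt]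
    have h1 : Real.log ‖q‖ < Real.log ‖u‖ := Real.log_lt_log hqpos hu1
    have h2 : Real.log ‖u‖ + Real.log ‖q‖ < 0 := by
      rw [← Real.log_mul hupos.ne' hqpos.ne']
      exact Real.log_neg (mul_pos hupos hqpos) hu2
    constructor
    · rw [← neg_div, neg_neg, div_lt_div_iff_of_pos_right h2pi]
      linarith
    · rw [div_lt_div_iff_of_pos_right h2pi]
      linarith
  · intro n hn
    apply hu
    have h := cexp_log_div hu0
    rw [hn] at h
    rw [← h]
    have : (2 : ℂ) * π * I * (n : ℂ) = (n : ℂ) * (2 * π * I) := by ring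
    rw [this, Complex.exp_int_mul_two_pi_mul_I]

/-- a point of the open strip `|Im z| < Im T` off `ℤ` is not in `ℤ + ℤ T`. -/
theorem not_mem_lattice (T : ℍ) (z : ℂ) (hz : |z.im| < T.im) (hzZ : ∀ n : ℤ, z ≠ n) :
    z ∉ (pairOne T).lattice := by
  intro hmem
  rw [PeriodPair.mem_lattice] at hmem
  obtain ⟨m, n, hmn⟩ := hmem
  rw [pairOne_ω₁, pairOne_ω₂, mul_one] at hmn
  have him : z.im = n * T.im := by
    rw [← hmn]
    simp
  have hTpos : 0 < T.im := T.im_pos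
  have hn0 : n = 0 := by
    by_contra hne
    have h1 : (1 : ℝ) ≤ |(n : ℝ)| := by
      have : (1 : ℤ) ≤ |n| := Int.one_le_abs hne
      exact_mod_cast this
    rw [him, abs_mul, abs_of_pos hTpos] at hz
    nlinarith
  apply hzZ m
  rw [← hmn, hn0]
  simp

end Fermat.Agent.GZ.Tate.Weq
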