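/-
GATE-Z (S15) / [MOD-beta] / GZ-MODB-WEQ (helper71), file 9: **the `ℂ`-side**: the formal Weierstrass
equation over every commutative ring, from

* `WpYAt` : `X = ℘/(2πi)² - 1/12`, `X + 2Y = ℘'/(2πi)³` for the lattice `ℤ + ℤT` (= helper29's
  `GZ/Tate/T2/WpY.lean`), stated as a hypothesis;
* `LambertAt ℂ` (= helper64's `GZ/Tate/T2/Lambert.lean` at `ℂ`), stated as a hypothesis;
* Mathlib's `PeriodPair.derivWeierstrassP_sq` and helper3's `G23` (`g₂`, `g₃`, `a₆`).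

`relation_complex` : the Weierstrass relation for `Tate.X q u`, `Tate.Y q u` over `ℂ` on the annulus;
`formalWeq_of` : `FormalWeq` in every universe.
-/
import Mathlib
import Fermat.Agent.GZ.Tate.Weq.Main
import Fermat.Agent.GZ.Tate.Weq.Strip
import Fermat.Agent.GZ.Tate.Weq.G23

set_option autoImplicit false
set_option linter.unusedSectionVars false

noncomputable section

namespace Fermat.Agent.GZ.Tate.Weq

open Complex PowerSeries
open UpperHalfPlane hiding I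
open scoped Real
open Fermat.Agent.DS.P1.WpRows

universe v

/-- the `q`-expansions of `℘` and `℘'` in Tate's coordinates (helper29's sub-leaf B). -/
def WpYAt : Prop :=
  ∀ (T : ℍ) (z : ℂ), |z.im| < T.im → (∀ n : ℤ, z ≠ n) →
    Tate.X (cexp (2 * π * I * T)) (cexp (2 * π * I * z)) =
        (pairOne T).weierstrassP z / (2 * π * I) ^ 2 - 1 / 12 ∧
      Tate.X (cexp (2 * π * I * T)) (cexp (2 * π * I * z)) +
          2 * Tate.Y (cexp (2 * π * I * T)) (cexp (2 * π * I * z)) =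
        (pairOne T).derivWeierstrassP z / (2 * π * I) ^ 3

/-- **the Weierstrass relation over `ℂ`** on the annulus `‖q‖ < ‖u‖ < ‖q‖⁻¹`, `u ≠ 1`. -/
theorem relation_complex (hB : WpYAt) {q u : ℂ} (hq0 : q ≠ 0) (hq1 : ‖q‖ < 1) (hu1 : ‖q‖ < ‖u‖)
    (hu2 : ‖u‖ * ‖q‖ < 1) (hu : u ≠ 1) :
    Tate.Y q u ^ 2 + Tate.X q u * Tate.Y q u =
      Tate.X q u ^ 3 + Tate.a4 q * Tate.X q u + Tate.a6 q := by
  obtain ⟨T, z, hT, hz, hzT, hzZ⟩ := exists_strip q u hq0 hq1 hu1 hu2 hu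
  obtain ⟨hX, hXY⟩ := hB T z hzT hzZ
  rw [hT, hz] at hX hXY
  have hrel := (pairOne T).derivWeierstrassP_sq z (not_mem_lattice T z hzT hzZ)
  have hg2 := G23.g₂_eq T
  have hg3 := G23.g₃_eq T
  rw [hT] at hg2 hg3
  exact weq_algebra two_pi_I_ne_zero' hX hXY hrel hg2 hg3 (G23.a4_eq_complex q)
    (G23.twelve_mul_a6 hq1)

theorem absConv_zero {𝕜 : Type*} [NormedField 𝕜] (f : 𝕜⟦X⟧) : AbsConv f 0 := by
  unfold AbsConv
  apply summable_of_ne_finset_zero (s := {0})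
  intro d hd
  have hd' : d ≠ 0 := by simpa using hd
  rw [zero_pow hd', mul_zero, norm_zero]

/-- the formal Weierstrass equation over `ℂ` at a real point `0 < r < 1`. -/
theorem weqF_complex_real (hB : WpYAt) (hL : LambertAt ℂ) {r : ℝ} (hr0 : 0 < r) (hr1 : r < 1) :
    WeqF (r : ℂ) (r : ℂ)⁻¹ (1 - (r : ℂ))⁻¹ := by
  have hnorm : ‖(r : ℂ)‖ = r := by
    rw [Complex.norm_real, Real.norm_of_nonneg hr0.le]
  have hne1 : (r : ℂ) ≠ 1 := by
    intro h
    have : r = 1 := by exact_mod_cast h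
    exact absurd this hr1.ne
  have key : ∀ q : ℂ, q ≠ 0 → ‖q‖ < r →
      ‖q‖ < 1 ∧ ‖q‖ < ‖(r : ℂ)‖ ∧ ‖(r : ℂ)‖ * ‖q‖ < 1 := by
    intro q _ hq
    refine ⟨hq.trans hr1, by rw [hnorm]; exact hq, ?_⟩
    rw [hnorm]
    calc r * ‖q‖ ≤ 1 * ‖q‖ := mul_le_mul_of_nonneg_right hr1.le (norm_nonneg q)
      _ = ‖q‖ := one_mul _
      _ < 1 := hq.trans hr1
  apply weqF_of_analytic (r : ℂ) (r : ℂ)⁻¹ (1 - (r : ℂ))⁻¹ hr0
  · intro q hq i
    by_cases hq0 : q = 0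
    · rw [hq0]; exact absConv_zero _
    · obtain ⟨h1, h2, h3⟩ := key q hq0 hq
      exact (hL q (r : ℂ) hq0 h1 h2 h3 hne1).1 i
  · intro q hq0 hq
    obtain ⟨h1, h2, h3⟩ := key q hq0 hq
    obtain ⟨_, hX, hY, h4, h6⟩ := hL q (r : ℂ) hq0 h1 h2 h3 hne1
    rw [hX, hY, h4, h6]
    exact relation_complex hB hq0 h1 h2 h3 hne1

/-- **the formal Weierstrass equation over every commutative ring.** -/
theorem formalWeq_of (hB : WpYAt) (hL : LambertAt ℂ) : FormalWeq.{v} := by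
  intro R _ u u' w h1 h2
  refine weqF_of_complex ((fun r : ℝ => (r : ℂ)) '' Set.Ioo 0 1) ?_ ?_ ?_ u u' w h1 h2
  · exact (Set.Ioo_infinite (by norm_num : (0 : ℝ) < 1)).image
      (Complex.ofReal_injective.injOn)
  · rintro _ ⟨r, ⟨hr0, hr1⟩, rfl⟩
    show (r : ℂ) ≠ 0 ∧ (r : ℂ) ≠ 1
    constructor
    · exact_mod_cast hr0.ne'
    · intro h
      have : r = 1 := by exact_mod_cast h
      exact absurd this hr1.ne
  · rintro _ ⟨r, ⟨hr0, hr1⟩, rfl⟩
    exact weqF_complex_real hB hL hr0 hr1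

end Fermat.Agent.GZ.Tate.Weq
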