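/-
GATE-Z (S15) / [MOD-beta] / GZ-MODB-WEQ (helper71), file 10: the binder `LambertAt 𝕜` of file 8 is
DISCHARGED from helper64's `GZ/Tate/T2/Lambert2.lean` (any complete normed field), so that the
Weierstrass equation of the Tate curve hangs on the single binder `WpYAt` (helper29's T2B):

* `lambertAt 𝕜 : LambertAt 𝕜`;
* `formalWeq_of_wpY (hB : WpYAt) : FormalWeq`;
* `equation_of_wpY`, `nonsingular_of_wpY`.
-/
import Mathlib
import Fermat.Agent.GZ.Tate.Weq.Complex
import Fermat.Agent.GZ.Tate.T2.Lambert2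

set_option autoImplicit false
set_option linter.unusedSectionVars false

noncomputable section

namespace Fermat.Agent.GZ.Tate.Weq

open PowerSeries

universe v

/-- **the Lambert evaluations** (helper64), in the shape of the binder of file 8. -/
theorem lambertAt (𝕜 : Type*) [NormedField 𝕜] [CompleteSpace 𝕜] : LambertAt 𝕜 := by
  intro q u hq0 hq1 hu1 hu2 _
  refine ⟨?_, T2.Lambert.evalPS_Xf hq0 hq1 hu1 hu2, T2.Lambert.evalPS_Yf hq0 hq1 hu1 hu2,
    T2.Lambert.evalPS_a4f hq1, T2.Lambert.evalPS_a6f hq1⟩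
  intro i
  fin_cases i
  · exact T2.Lambert.absConv_Xf hq1 hu1 hu2
  · exact T2.Lambert.absConv_Yf hq1 hu1 hu2
  · exact T2.Lambert.absConv_a4f hq1
  · exact T2.Lambert.absConv_a6f hq1

/-- the formal Weierstrass equation over every commutative ring, from helper29's T2B. -/
theorem formalWeq_of_wpY (hB : WpYAt) : FormalWeq.{v} :=
  formalWeq_of hB (lambertAt ℂ)

section Ultrametric

variable {K : Type v} [NormedField K] [IsUltrametricDist K] [CompleteSpace K]

/-- **the Weierstrass equation of the Tate curve**, from helper29's T2B. -/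
theorem equation_of_wpY (hB : WpYAt) {q u : K} (hq0 : q ≠ 0) (hq1 : ‖q‖ < 1)
    (hu : Tate.IsAdm q u) :
    (Tate.tateCurve q).toAffine.Equation (Tate.X q u) (Tate.Y q u) :=
  equation_of (lambertAt K) (formalWeq_of_wpY hB) hq0 hq1 hu

/-- **nonsingularity** (`hns` of `T2/Hom.lean`), from helper29's T2B. -/
theorem nonsingular_of_wpY (hB : WpYAt) {q : K} (hq0 : q ≠ 0) (hq1 : ‖q‖ < 1) (u : K)
    (hu : Tate.IsAdm q u) :
    (Tate.tateCurve q).toAffine.Nonsingular (Tate.X q u) (Tate.Y q u) :=
  nonsingular_of (lambertAt K) (formalWeq_of_wpY hB) hq0 hq1 u hu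

end Ultrametric

end Fermat.Agent.GZ.Tate.Weq
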