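/-
GATE-Z (S15) / [MOD-beta] / GZ-MODB-WEQ (helper71), file 11 (twin of the `X`-half of T2B):

over `ℂ`, `q = e(T)`, `u = e(z)`, `|Im z| < Im T`, `z ∉ ℤ`:
`Tate.X q u = ℘[pairOne T] z / (2πi)² - 1/12`.

From `DS/P1/WpRows.hasSum_weierstrassP_rows` (the double series over `ℕ+ × ℕ+`) and helper64's
`T2/Lambert.lean` (`X q u = xTerm u + ∑' c : ℕ × ℕ, lam (GX u u⁻¹) q c`).
-/
import Mathlib
import Fermat.Agent.DS.P1.WpRows
import Fermat.Agent.GZ.Tate.T2.Lambert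

set_option autoImplicit false

noncomputable section

namespace Fermat.Agent.GZ.Tate.Weq.WpYT

open Complex
open UpperHalfPlane hiding I
open scoped Real
open Fermat.Agent.DS.P1.WpRows Fermat.Agent.GZ.Tate.T2.Lambert

/-- the three norm conditions of the annulus, in the strip. -/
theorem annulus_of_strip {T : ℍ} {z : ℂ} (hz : |z.im| < T.im) :
    cexp (2 * π * I * T) ≠ 0 ∧ ‖cexp (2 * π * I * T)‖ < 1 ∧
      ‖cexp (2 * π * I * T)‖ < ‖cexp (2 * π * I * z)‖ ∧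
      ‖cexp (2 * π * I * z)‖ * ‖cexp (2 * π * I * T)‖ < 1 := by
  obtain ⟨hz1, hz2⟩ := abs_lt.mp hz
  have hTim : ((T : ℂ)).im = T.im := rfl
  have hpi := Real.pi_pos
  refine ⟨Complex.exp_ne_zero _, norm_cexp_lt_one (by rw [hTim]; exact T.im_pos), ?_, ?_⟩
  · rw [norm_cexp_two_pi_I_mul, norm_cexp_two_pi_I_mul, Real.exp_lt_exp, hTim]
    nlinarith
  · rw [norm_cexp_two_pi_I_mul, norm_cexp_two_pi_I_mul, ← Real.exp_add, Real.exp_lt_one_iff, hTim]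
    nlinarith

/-- `X q u = xTerm u + ∑' c, lam (GX u u⁻¹) q c` (any complete normed field). -/
theorem X_eq_xTerm_add {𝕜 : Type*} [NormedField 𝕜] [CompleteSpace 𝕜] {q u : 𝕜} (hq0 : q ≠ 0)
    (hq1 : ‖q‖ < 1) (hu1 : ‖q‖ < ‖u‖) (hu2 : ‖u‖ * ‖q‖ < 1) :
    Tate.X q u = Tate.xTerm u + ∑' c, lam (GX u u⁻¹) q c := by
  have hu' := norm_inv_mul_lt hu1
  rw [Tate.X, (hasSum_int_xTerm hq0 hq1 hu1 hu2).tsum_eq, tsum_GX hq1 hu2 hu',
    sK_eq_tsum_lam 1 hq1]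
  ring

/-- the double series of `DS/P1/WpRows`, reindexed over `ℕ × ℕ`. -/
theorem hasSum_lam_GX (T : ℍ) (z : ℂ) (hz : |z.im| < T.im) (hzZ : ∀ n : ℤ, z ≠ n) :
    HasSum (lam (GX (cexp (2 * π * I * z)) (cexp (2 * π * I * z))⁻¹) (cexp (2 * π * I * T)))
      ((pairOne T).weierstrassP z / (2 * π * I) ^ 2 - 1 / 12
        - Tate.xTerm (cexp (2 * π * I * z))) := by
  have h := hasSum_weierstrassP_rows T z hz hzZ
  let e : ℕ × ℕ ≃ ℕ+ × ℕ+ := Equiv.prodCongr Equiv.pnatEquivNat.symm Equiv.pnatEquivNat.symm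
  have h2 := e.hasSum_iff.mpr h
  rw [Tate.xTerm]
  refine h2.congr_fun fun c => ?_
  show lam _ _ c = _
  simp only [Function.comp, e, Equiv.prodCongr_apply, Prod.map, Equiv.pnatEquivNat_symm_apply,
    Nat.succPNat_coe, lam, GX, gXp, gS, Nat.succ_eq_add_one, pow_one]
  push_cast
  ring

/-- **the `X`-half of T2B.** -/
theorem X_eq (T : ℍ) (z : ℂ) (hz : |z.im| < T.im) (hzZ : ∀ n : ℤ, z ≠ n) :
    Tate.X (cexp (2 * π * I * T)) (cexp (2 * π * I * z)) =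
      (pairOne T).weierstrassP z / (2 * π * I) ^ 2 - 1 / 12 := by
  obtain ⟨hq0, hq1, hu1, hu2⟩ := annulus_of_strip hz
  rw [X_eq_xTerm_add hq0 hq1 hu1 hu2, (hasSum_lam_GX T z hz hzZ).tsum_eq]
  ring

end Fermat.Agent.GZ.Tate.Weq.WpYT
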