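/-
GATE-Z (S15) / [MOD-beta] / GZ-MODB-WEQ (helper71), file 12 (twin of the `℘'`-half of T2B):

over `ℂ`, `q = e(T)`, `u = e(z)`, `|Im z| < Im T`, `z ∉ ℤ`:
`Tate.X q u + 2 Tate.Y q u = ℘'[pairOne T] z / (2πi)³`.

Route: on the open set `{|Im w| < c} ∖ Λ` (`c < Im T`) one has
`℘(w)/(2πi)² - 1/12 = xTerm (e w) + ∑_{d ≥ 1} xCoeff (e w) (e w)⁻¹ d · q^d` (file 11 + helper64's
`hasSum_Xf`), a SINGLE series of entire functions with a summable uniform bound; differentiate termwise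
(`Complex.hasSum_deriv_of_summable_norm`), `(d/dw) xCoeff = 2πi (xCoeff + 2 yCoeff)`,
`(d/dw) xTerm (e w) = 2πi (xTerm + 2 yTerm)(e w)`, and compare with helper64's `hasSum_Xf`, `hasSum_Yf`.
-/
import Mathlib
import Fermat.Agent.GZ.Tate.Weq.WpYT1
import Fermat.Agent.GZ.Tate.Weq.Strip

set_option autoImplicit false

noncomputable section

namespace Fermat.Agent.GZ.Tate.Weq.WpYT

open Complex PowerSeries
open UpperHalfPlane hiding I
open scoped Real
open Fermat.Agent.DS.P1.WpRows Fermat.Agent.GZ.Tate.T2.Lambert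

/-! ### the algebraic identity `xCoeff + 2 yCoeff = ∑ m² (u^m - u'^m)` -/

theorem two_mul_choose_two_add (m : ℕ) : 2 * m.choose 2 + m = m ^ 2 := by
  induction m with
  | zero => simp
  | succ m ih =>
    have h : (m + 1).choose 2 = m + m.choose 2 := by
      rw [Nat.choose_succ_succ, Nat.choose_one_right]
    rw [h]
    nlinarith

theorem two_mul_choose_two_succ (m : ℕ) : 2 * (m + 1).choose 2 = m ^ 2 + m := by
  have h : (m + 1).choose 2 = m + m.choose 2 := by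
    rw [Nat.choose_succ_succ, Nat.choose_one_right]
  have := two_mul_choose_two_add m
  rw [h]
  nlinarith

theorem xCoeff_add_two_yCoeff {R : Type*} [CommRing R] (u u' : R) (n : ℕ) :
    xCoeff u u' n + 2 * yCoeff u u' n = ∑ m ∈ n.divisors, (m : R) ^ 2 * (u ^ m - u' ^ m) := by
  unfold xCoeff yCoeff
  rw [Finset.mul_sum, ← Finset.sum_add_distrib]
  refine Finset.sum_congr rfl fun m _ => ?_
  have h1 : (2 : R) * ((m.choose 2 : ℕ) : R) + (m : R) = (m : R) ^ 2 := by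
    exact_mod_cast congrArg (Nat.cast (R := R)) (two_mul_choose_two_add m)
  have h2 : (2 : R) * (((m + 1).choose 2 : ℕ) : R) = (m : R) ^ 2 + (m : R) := by
    exact_mod_cast congrArg (Nat.cast (R := R)) (two_mul_choose_two_succ m)
  linear_combination (u ^ m) * h1 - (u' ^ m) * h2

/-! ### derivatives -/

theorem hasDerivAt_pe (m : ℕ) (z : ℂ) :
    HasDerivAt (fun w : ℂ => cexp (2 * π * I * w) ^ m)
      (2 * π * I * m * cexp (2 * π * I * z) ^ m) z := by
  have h1 : HasDerivAt (fun w : ℂ => (m : ℂ) * (2 * π * I * w)) ((m : ℂ) * (2 * π * I * 1)) z :=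
    ((hasDerivAt_id z).const_mul _).const_mul _
  have h2 := h1.cexp
  simp only [Complex.exp_nat_mul] at h2
  exact h2.congr_deriv (by ring)

theorem hasDerivAt_pe' (m : ℕ) (z : ℂ) :
    HasDerivAt (fun w : ℂ => (cexp (2 * π * I * w))⁻¹ ^ m)
      (-(2 * π * I * m * (cexp (2 * π * I * z))⁻¹ ^ m)) z := by
  have h1 : HasDerivAt (fun w : ℂ => (m : ℂ) * (-(2 * π * I * w))) ((m : ℂ) * (-(2 * π * I * 1))) z :=
    (((hasDerivAt_id z).const_mul _).neg).const_mul _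
  have h2 := h1.cexp
  simp only [Complex.exp_nat_mul, Complex.exp_neg] at h2
  exact h2.congr_deriv (by ring)

theorem hasDerivAt_xCoeff (n : ℕ) (z : ℂ) :
    HasDerivAt (fun w : ℂ => xCoeff (cexp (2 * π * I * w)) (cexp (2 * π * I * w))⁻¹ n)
      (2 * π * I * (xCoeff (cexp (2 * π * I * z)) (cexp (2 * π * I * z))⁻¹ n
        + 2 * yCoeff (cexp (2 * π * I * z)) (cexp (2 * π * I * z))⁻¹ n)) z := by
  rw [xCoeff_add_two_yCoeff, Finset.mul_sum]
  unfold xCoeff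
  refine HasDerivAt.fun_sum fun m _ => ?_
  have h := (((hasDerivAt_pe m z).add (hasDerivAt_pe' m z)).sub_const (2 : ℂ)).const_mul (m : ℂ)
  exact h.congr_deriv (by ring)

theorem hasDerivAt_xTerm_cexp {z : ℂ} (hu : cexp (2 * π * I * z) ≠ 1) :
    HasDerivAt (fun w : ℂ => Tate.xTerm (cexp (2 * π * I * w)))
      (2 * π * I * (Tate.xTerm (cexp (2 * π * I * z)) + 2 * Tate.yTerm (cexp (2 * π * I * z)))) z := by
  have hE : HasDerivAt (fun w : ℂ => cexp (2 * π * I * w)) (cexp (2 * π * I * z) * (2 * π * I * 1)) z :=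
    ((hasDerivAt_id z).const_mul _).cexp
  have h1 : (1 : ℂ) - cexp (2 * π * I * z) ≠ 0 := sub_ne_zero.2 (Ne.symm hu)
  have hden : HasDerivAt (fun w : ℂ => (1 - cexp (2 * π * I * w)) ^ 2)
      (2 * (1 - cexp (2 * π * I * z)) ^ (2 - 1) * (-(cexp (2 * π * I * z) * (2 * π * I * 1)))) z :=
    ((hE.const_sub 1).pow 2)
  have h := hE.div hden (pow_ne_zero 2 h1)
  unfold Tate.xTerm Tate.yTerm
  refine h.congr_deriv ?_
  field_simp
  ring

/-! ### the uniform bound -/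

theorem norm_xCoeff_le {u u' : ℂ} {R : ℝ} (hR : 1 ≤ R) (hu : ‖u‖ ≤ R) (hu' : ‖u'‖ ≤ R) (n : ℕ) :
    ‖xCoeff u u' n‖ ≤ 4 * (n : ℝ) ^ 2 * R ^ n := by
  unfold xCoeff
  have hR0 : 0 ≤ R := le_trans zero_le_one hR
  have hterm : ∀ m ∈ n.divisors, ‖(m : ℂ) * (u ^ m + u' ^ m - 2)‖ ≤ (n : ℝ) * (4 * R ^ n) := by
    intro m hm
    have hmn : m ≤ n := Nat.divisor_le hm
    have hpow : R ^ m ≤ R ^ n := pow_le_pow_right₀ hR hmn
    have h1n : (1 : ℝ) ≤ R ^ n := one_le_pow₀ hR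
    rw [norm_mul]
    have h1 : ‖(m : ℂ)‖ ≤ (n : ℝ) := by
      rw [Complex.norm_natCast]
      exact_mod_cast hmn
    have h2 : ‖u ^ m + u' ^ m - 2‖ ≤ 4 * R ^ n := by
      have ha : ‖u ^ m‖ ≤ R ^ n := by
        rw [norm_pow]; exact (pow_le_pow_left₀ (norm_nonneg _) hu m).trans hpow
      have hb : ‖u' ^ m‖ ≤ R ^ n := by
        rw [norm_pow]; exact (pow_le_pow_left₀ (norm_nonneg _) hu' m).trans hpow
      have hc : ‖(2 : ℂ)‖ = 2 := by norm_num
      calc ‖u ^ m + u' ^ m - 2‖ ≤ ‖u ^ m + u' ^ m‖ + ‖(2 : ℂ)‖ := norm_sub_le _ _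
        _ ≤ ‖u ^ m‖ + ‖u' ^ m‖ + 2 := by rw [hc]; linarith [norm_add_le (u ^ m) (u' ^ m)]
        _ ≤ 4 * R ^ n := by linarith
    exact mul_le_mul h1 h2 (norm_nonneg _) (Nat.cast_nonneg n)
  calc ‖∑ m ∈ n.divisors, (m : ℂ) * (u ^ m + u' ^ m - 2)‖
      ≤ ∑ m ∈ n.divisors, ‖(m : ℂ) * (u ^ m + u' ^ m - 2)‖ := norm_sum_le _ _
    _ ≤ ∑ _m ∈ n.divisors, (n : ℝ) * (4 * R ^ n) := Finset.sum_le_sum hterm
    _ = (n.divisors.card : ℝ) * ((n : ℝ) * (4 * R ^ n)) := by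
        rw [Finset.sum_const, nsmul_eq_mul]
    _ ≤ (n : ℝ) * ((n : ℝ) * (4 * R ^ n)) := by
        apply mul_le_mul_of_nonneg_right
        · exact_mod_cast Nat.card_divisors_le_self n
        · positivity
    _ = 4 * (n : ℝ) ^ 2 * R ^ n := by ring

/-! ### the tail series -/

/-- the `d`-th term of the tail of the `q`-expansion of `X`, as a function of `w`. -/
def Fd (T : ℍ) (d : ℕ) (w : ℂ) : ℂ :=
  xCoeff (cexp (2 * π * I * w)) (cexp (2 * π * I * w))⁻¹ (d + 1) * cexp (2 * π * I * T) ^ (d + 1)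

theorem hasDerivAt_Fd (T : ℍ) (d : ℕ) (z : ℂ) :
    HasDerivAt (Fd T d)
      (2 * π * I * ((xCoeff (cexp (2 * π * I * z)) (cexp (2 * π * I * z))⁻¹ (d + 1)
        + 2 * yCoeff (cexp (2 * π * I * z)) (cexp (2 * π * I * z))⁻¹ (d + 1))
          * cexp (2 * π * I * T) ^ (d + 1))) z :=
  ((hasDerivAt_xCoeff (d + 1) z).mul_const _).congr_deriv (by ring)

theorem norm_cexp_le_of_abs_im_lt {c : ℝ} {w : ℂ} (hw : |w.im| < c) :
    ‖cexp (2 * π * I * w)‖ ≤ Real.exp (2 * π * c) ∧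
      ‖(cexp (2 * π * I * w))⁻¹‖ ≤ Real.exp (2 * π * c) := by
  obtain ⟨h1, h2⟩ := abs_lt.mp hw
  have hpi := Real.pi_pos
  constructor
  · rw [norm_cexp_two_pi_I_mul, Real.exp_le_exp]
    nlinarith
  · rw [norm_inv, norm_cexp_two_pi_I_mul, ← Real.exp_neg, Real.exp_le_exp]
    nlinarith

theorem norm_Fd_le (T : ℍ) {c : ℝ} {w : ℂ} (hw : |w.im| < c) (d : ℕ) :
    ‖Fd T d w‖ ≤
      4 * (((d + 1 : ℕ) : ℝ)) ^ 2 * (Real.exp (2 * π * c) * ‖cexp (2 * π * I * T)‖) ^ (d + 1) := by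
  have hc : 0 < c := lt_of_le_of_lt (abs_nonneg _) hw
  have hR : 1 ≤ Real.exp (2 * π * c) := by
    rw [Real.one_le_exp_iff]
    have := Real.pi_pos
    positivity
  obtain ⟨h1, h2⟩ := norm_cexp_le_of_abs_im_lt hw
  have h := norm_xCoeff_le hR h1 h2 (d + 1)
  rw [Fd, norm_mul, norm_pow, mul_pow, ← mul_assoc]
  exact mul_le_mul_of_nonneg_right h (pow_nonneg (norm_nonneg _) _)

theorem summable_bound {ρ : ℝ} (h0 : 0 ≤ ρ) (h1 : ρ < 1) :
    Summable fun d : ℕ => 4 * (((d + 1 : ℕ) : ℝ)) ^ 2 * ρ ^ (d + 1) := by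
  have h := summable_pow_mul_geometric_of_norm_lt_one (R := ℝ) 2 (r := ρ)
    (by rw [Real.norm_of_nonneg h0]; exact h1)
  have h2 := (summable_nat_add_iff 1).2 h
  refine (h2.mul_left 4).congr fun d => ?_
  ring

/-! ### the `℘'`-half -/

/-- **the `℘'`-half of T2B.** -/
theorem XY_eq (T : ℍ) (z : ℂ) (hz : |z.im| < T.im) (hzZ : ∀ n : ℤ, z ≠ n) :
    Tate.X (cexp (2 * π * I * T)) (cexp (2 * π * I * z)) +
        2 * Tate.Y (cexp (2 * π * I * T)) (cexp (2 * π * I * z)) =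
      (pairOne T).derivWeierstrassP z / (2 * π * I) ^ 3 := by
  have hpi := Real.pi_pos
  have hTim : ((T : ℂ)).im = T.im := rfl
  -- the strip `U`
  set c : ℝ := (|z.im| + T.im) / 2 with hc_def
  have hc1 : |z.im| < c := by rw [hc_def]; linarith
  have hc2 : c < T.im := by rw [hc_def]; linarith
  let U : Set ℂ := {w | |w.im| < c}
  have hU : IsOpen U := isOpen_lt (continuous_abs.comp Complex.continuous_im) continuous_const
  have hzU : z ∈ U := hc1
  -- the geometric ratio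
  have hρ0 : 0 ≤ Real.exp (2 * π * c) * ‖cexp (2 * π * I * T)‖ := by positivity
  have hρ1 : Real.exp (2 * π * c) * ‖cexp (2 * π * I * T)‖ < 1 := by
    rw [norm_cexp_two_pi_I_mul, ← Real.exp_add, Real.exp_lt_one_iff, hTim]
    nlinarith
  have hsumm := summable_bound hρ0 hρ1
  have hdiffF : ∀ d, DifferentiableOn ℂ (Fd T d) U := fun d w _ =>
    (hasDerivAt_Fd T d w).differentiableAt.differentiableWithinAt
  have hle : ∀ (d : ℕ) (w : ℂ), w ∈ U → ‖Fd T d w‖ ≤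
      4 * (((d + 1 : ℕ) : ℝ)) ^ 2 * (Real.exp (2 * π * c) * ‖cexp (2 * π * I * T)‖) ^ (d + 1) :=
    fun d w hw => norm_Fd_le T hw d
  -- termwise differentiation
  have hderiv := hasSum_deriv_of_summable_norm hsumm hdiffF hU hle hzU
  have hdiffG : DifferentiableAt ℂ (fun w : ℂ => ∑' d, Fd T d w) z :=
    (differentiableOn_tsum_of_summable_norm hsumm hdiffF hU hle).differentiableAt
      (hU.mem_nhds hzU)
  -- the identity on `U ∖ Λ`
  have hV : IsOpen (U ∩ ((pairOne T).lattice : Set ℂ)ᶜ) :=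
    hU.inter (pairOne T).isClosed_lattice.isOpen_compl
  have hzV : z ∈ U ∩ ((pairOne T).lattice : Set ℂ)ᶜ := ⟨hzU, not_mem_lattice T z hz hzZ⟩
  have hid : ∀ w ∈ U ∩ ((pairOne T).lattice : Set ℂ)ᶜ,
      (pairOne T).weierstrassP w / (2 * π * I) ^ 2 - 1 / 12 =
        Tate.xTerm (cexp (2 * π * I * w)) + ∑' d, Fd T d w := by
    rintro w ⟨hwU, hwL⟩
    have hw : |w.im| < T.im := lt_trans hwU hc2
    have hwZ : ∀ n : ℤ, w ≠ n := by
      intro n hn
      apply hwL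
      rw [hn]
      show (n : ℂ) ∈ (pairOne T).lattice
      rw [PeriodPair.mem_lattice]
      exact ⟨n, 0, by simp⟩
    obtain ⟨hq0, hq1, hu1, hu2⟩ := annulus_of_strip hw
    have h := hasSum_Xf hq0 hq1 hu1 hu2
    have h2 := (hasSum_nat_add_iff' 1).2 h
    rw [Finset.sum_range_one, pow_zero, mul_one, coeff_zero_Xf, X_eq T w hw hwZ] at h2
    have h3 : (∑' d, Fd T d w) = (pairOne T).weierstrassP w / (2 * π * I) ^ 2 - 1 / 12
        - Tate.xTerm (cexp (2 * π * I * w)) := by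
      rw [← h2.tsum_eq]
      refine tsum_congr fun d => ?_
      rw [Fd, Weq.coeff_Xf, if_neg (Nat.succ_ne_zero d)]
    rw [h3]
    ring
  -- derivatives of both sides
  have hzL : z ∈ ((pairOne T).lattice : Set ℂ)ᶜ := hzV.2
  have hP : HasDerivAt (pairOne T).weierstrassP ((pairOne T).derivWeierstrassP z) z := by
    have hd : DifferentiableAt ℂ (pairOne T).weierstrassP z :=
      ((pairOne T).differentiableOn_weierstrassP z hzL).differentiableAt
        ((pairOne T).isClosed_lattice.isOpen_compl.mem_nhds hzL)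
    have := hd.hasDerivAt
    rwa [PeriodPair.deriv_weierstrassP] at this
  have hA : HasDerivAt (fun w => (pairOne T).weierstrassP w / (2 * π * I) ^ 2 - 1 / 12)
      ((pairOne T).derivWeierstrassP z / (2 * π * I) ^ 2) z :=
    (hP.div_const _).sub_const _
  have hu1' : cexp (2 * π * I * z) ≠ 1 := by
    intro h
    obtain ⟨n, hn⟩ := Complex.exp_eq_one_iff.1 h
    apply hzZ n
    have h2 : (2 * (π : ℂ) * I) ≠ 0 := two_pi_I_ne_zero'
    have : 2 * π * I * z = 2 * π * I * n := by rw [hn]; ring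
    exact mul_left_cancel₀ h2 this
  have hB : HasDerivAt (fun w => Tate.xTerm (cexp (2 * π * I * w)) + ∑' d, Fd T d w)
      (2 * π * I * (Tate.xTerm (cexp (2 * π * I * z)) + 2 * Tate.yTerm (cexp (2 * π * I * z)))
        + deriv (fun w : ℂ => ∑' d, Fd T d w) z) z :=
    (hasDerivAt_xTerm_cexp hu1').add hdiffG.hasDerivAt
  have hev : (fun w => (pairOne T).weierstrassP w / (2 * π * I) ^ 2 - 1 / 12) =ᶠ[nhds z]
      (fun w => Tate.xTerm (cexp (2 * π * I * w)) + ∑' d, Fd T d w) :=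
    Filter.eventuallyEq_of_mem (hV.mem_nhds hzV) hid
  have hkey := (hB.congr_of_eventuallyEq hev).unique hA
  -- the derivative of the tail
  have hderiv' : HasSum (fun d => 2 * π * I *
      ((xCoeff (cexp (2 * π * I * z)) (cexp (2 * π * I * z))⁻¹ (d + 1)
        + 2 * yCoeff (cexp (2 * π * I * z)) (cexp (2 * π * I * z))⁻¹ (d + 1))
          * cexp (2 * π * I * T) ^ (d + 1)))
      (deriv (fun w : ℂ => ∑' d, Fd T d w) z) := by
    refine hderiv.congr_fun fun d => ?_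
    exact (hasDerivAt_Fd T d z).deriv.symm
  -- `X + 2Y` as a series
  obtain ⟨hq0, hq1, hu1, hu2⟩ := annulus_of_strip hz
  have hX := hasSum_Xf hq0 hq1 hu1 hu2
  have hY := hasSum_Yf hq0 hq1 hu1 hu2
  have hXY := hX.add (hY.mul_left 2)
  have hXY2 := (hasSum_nat_add_iff' 1).2 hXY
  rw [Finset.sum_range_one, pow_zero, mul_one, mul_one, coeff_zero_Xf, coeff_zero_Yf] at hXY2
  have hXY3 : HasSum (fun d => 2 * π * I *
      ((xCoeff (cexp (2 * π * I * z)) (cexp (2 * π * I * z))⁻¹ (d + 1)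
        + 2 * yCoeff (cexp (2 * π * I * z)) (cexp (2 * π * I * z))⁻¹ (d + 1))
          * cexp (2 * π * I * T) ^ (d + 1)))
      (2 * π * I * (Tate.X (cexp (2 * π * I * T)) (cexp (2 * π * I * z)) +
        2 * Tate.Y (cexp (2 * π * I * T)) (cexp (2 * π * I * z)) -
        (Tate.xTerm (cexp (2 * π * I * z)) + 2 * Tate.yTerm (cexp (2 * π * I * z))))) := by
    refine (hXY2.mul_left (2 * π * I)).congr_fun fun d => ?_
    rw [Weq.coeff_Xf, if_neg (Nat.succ_ne_zero d), Weq.coeff_Yf, if_neg (Nat.succ_ne_zero d)]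
    ring
  have hval := hderiv'.unique hXY3
  rw [hval] at hkey
  have h2 : (2 * (π : ℂ) * I) ≠ 0 := two_pi_I_ne_zero'
  have h22 : (2 * (π : ℂ) * I) ^ 2 ≠ 0 := pow_ne_zero 2 h2
  have h23 : (2 * (π : ℂ) * I) ^ 3 ≠ 0 := pow_ne_zero 3 h2
  rw [eq_div_iff h23]
  rw [eq_div_iff h22] at hkey
  linear_combination hkey

end Fermat.Agent.GZ.Tate.Weq.WpYT
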