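/-
GATE-Z (S15) / [MOD-beta] / GZ-MODB-WEQ (helper71), file 13: **WEQ CLOSED, binder-free.**

* `wpYAt : WpYAt`  (files 11, 12: `X = ℘/(2πi)² - 1/12`, `X + 2Y = ℘'/(2πi)³` over `ℂ`);
* `weqF`     : the FORMAL Weierstrass equation `WeqF u u' w` over every commutative ring;
* `formalWeq : FormalWeq` (the same, as the binder of file 8);
* `equation` : `(X q u, Y q u) ∈ E_q` for every `u ∈ K^× ∖ q^ℤ`, `K` complete ultrametric;
* `nonsingular` : the binder `hns` of `T2/Hom.lean`, `T3/TatePlug.lean`, `T4/Plug.lean`.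
-/
import Mathlib
import Fermat.Agent.GZ.Tate.Weq.Lam
import Fermat.Agent.GZ.Tate.Weq.WpYT2

set_option autoImplicit false
set_option linter.unusedSectionVars false

noncomputable section

namespace Fermat.Agent.GZ.Tate.Weq

universe v

/-- the `q`-expansions of `℘`, `℘'` in Tate's coordinates. -/
theorem wpYAt : WpYAt := fun T z hz hzZ => ⟨WpYT.X_eq T z hz hzZ, WpYT.XY_eq T z hz hzZ⟩

/-- the formal Weierstrass equation, as the binder of file 8. -/
theorem formalWeq : FormalWeq.{v} := formalWeq_of_wpY wpYAt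

/-- **the formal Weierstrass equation of the Tate curve** over every commutative ring:
`Yf² + Xf Yf = Xf³ + a₄ Xf + a₆` in `R⟦q⟧` whenever `u u' = 1`, `(1 - u) w = 1`. -/
theorem weqF {R : Type v} [CommRing R] (u u' w : R) (h1 : u * u' = 1) (h2 : (1 - u) * w = 1) :
    WeqF u u' w :=
  formalWeq R u u' w h1 h2

section Ultrametric

variable {K : Type v} [NormedField K] [IsUltrametricDist K] [CompleteSpace K]

/-- **the Weierstrass equation of the Tate curve**: `(X(u,q), Y(u,q)) ∈ E_q` for every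
`u ∈ K^× ∖ q^ℤ`. -/
theorem equation {q u : K} (hq0 : q ≠ 0) (hq1 : ‖q‖ < 1) (hu : Tate.IsAdm q u) :
    (Tate.tateCurve q).toAffine.Equation (Tate.X q u) (Tate.Y q u) :=
  equation_of_wpY wpYAt hq0 hq1 hu

/-- **nonsingularity** of the Tate parametrisation. -/
theorem nonsingular {q : K} (hq0 : q ≠ 0) (hq1 : ‖q‖ < 1) (u : K) (hu : Tate.IsAdm q u) :
    (Tate.tateCurve q).toAffine.Nonsingular (Tate.X q u) (Tate.Y q u) :=
  nonsingular_of_wpY wpYAt hq0 hq1 u hu

/-- the Weierstrass relation, as an equation in `K`. -/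
theorem relation {q u : K} (hq0 : q ≠ 0) (hq1 : ‖q‖ < 1) (hu : Tate.IsAdm q u) :
    Tate.Y q u ^ 2 + Tate.X q u * Tate.Y q u =
      Tate.X q u ^ 3 + Tate.a4 q * Tate.X q u + Tate.a6 q :=
  (equation_iff_relation q _ _).1 (equation hq0 hq1 hu)

end Ultrametric

end Fermat.Agent.GZ.Tate.Weq
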